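import Fermat.Agent.TwoAdic.Theta.Defs
import Fermat.Agent.TwoAdic.ThetaInversion

/-!
# Analytic properties of periodic theta series

Convergence, holomorphy, boundedness, translation and inversion.

Owner: helper76 (LT2, P3a).
-/

set_option autoImplicit false

noncomputable section

namespace Fermat.Agent.TwoAdic.Theta

open Complex PosForm
open scoped Real

/-- The real form underlying an integral one. -/
def PosForm.toReal (f : PosForm) : PosBinaryForm where
  a := f.a
  b := f.b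
  c := f.c
  a_pos := by exact_mod_cast f.a_pos
  disc_neg := by exact_mod_cast f.disc_neg

variable (f : PosForm)

theorem toReal_eval (x : ℤ × ℤ) : f.toReal.eval x.1 x.2 = ((f.eval x : ℤ) : ℝ) := by
  simp [PosBinaryForm.eval, PosForm.toReal, PosForm.eval]; ring

theorem toReal_delta : f.toReal.delta = (f.disc : ℝ) := by
  rw [f.disc_cast ℝ]; simp [PosBinaryForm.delta, PosForm.toReal]

theorem toReal_dual_eval (x : ℤ × ℤ) :
    f.toReal.dual.eval x.1 x.2 = ((f.adj.eval x : ℤ) : ℝ) := by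
  simp [PosBinaryForm.eval, PosBinaryForm.dual, PosForm.toReal, PosForm.eval]; ring

variable (m : ℕ) (φ : ZMod m × ZMod m → ℂ)

/-- One term of a periodic theta series. -/
def thetaTerm (τ : ℂ) (x : ℤ × ℤ) : ℂ :=
  φ (vecCast m x) * cexp (2 * π * I * (f.eval x : ℤ) * τ)

theorem thetaC_eq_tsum (τ : ℂ) : thetaC f m φ τ = ∑' x, thetaTerm f m φ τ x := rfl

theorem thetaTerm_eq (τ : ℂ) (x : ℤ × ℤ) :
    thetaTerm f m φ τ x = φ (vecCast m x) * binaryThetaTerm f.toReal (0, 0) (0, 0) τ x := by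
  rw [thetaTerm, binaryThetaTerm, expTwoPiI]
  simp only [add_zero, zero_mul, Complex.ofReal_zero, toReal_eval f x]
  push_cast
  ring_nf

/-- A uniform bound for the terms on `im τ ≥ y₀`. -/
def thetaMajorant (y₀ : ℝ) (x : ℤ × ℤ) : ℝ :=
  Real.exp (-2 * π * (y₀ * f.toReal.eval x.1 x.2))

theorem summable_thetaMajorant {y₀ : ℝ} (hy : 0 < y₀) : Summable (thetaMajorant f y₀) := by
  have h := summable_binaryTheta_bound f.toReal (0, 0) hy
  simp only [add_zero] at h
  exact h

variable [NeZero m]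

theorem norm_thetaTerm_le {y₀ : ℝ} {τ : ℂ} (hτ : y₀ ≤ τ.im) (x : ℤ × ℤ) :
    ‖thetaTerm f m φ τ x‖ ≤ (∑ h, ‖φ h‖) * thetaMajorant f y₀ x := by
  have h := norm_binaryThetaTerm_le_of_le_im f.toReal (0, 0) (0, 0) hτ x
  simp only [add_zero] at h
  rw [thetaTerm_eq, norm_mul]
  exact mul_le_mul (Finset.single_le_sum (fun i _ => norm_nonneg (φ i)) (Finset.mem_univ _)) h
    (norm_nonneg _) (Finset.sum_nonneg fun i _ => norm_nonneg _)

theorem summable_thetaTerm {τ : ℂ} (hτ : 0 < τ.im) : Summable (thetaTerm f m φ τ) :=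
  Summable.of_norm_bounded ((summable_thetaMajorant f hτ).mul_left _)
    (norm_thetaTerm_le f m φ le_rfl)

theorem hasSum_thetaC {τ : ℂ} (hτ : 0 < τ.im) :
    HasSum (thetaTerm f m φ τ) (thetaC f m φ τ) :=
  (summable_thetaTerm f m φ hτ).hasSum

theorem exists_bound_thetaC {y₀ : ℝ} (hy : 0 < y₀) :
    ∃ B : ℝ, ∀ τ : ℂ, y₀ ≤ τ.im → ‖thetaC f m φ τ‖ ≤ B :=
  ⟨_, fun _ hτ => tsum_of_norm_bounded ((summable_thetaMajorant f hy).mul_left _).hasSum
    (norm_thetaTerm_le f m φ hτ)⟩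

theorem differentiableOn_thetaC :
    DifferentiableOn ℂ (thetaC f m φ) {τ : ℂ | 0 < τ.im} := by
  intro τ hτ
  have hτ' : 0 < τ.im := hτ
  have hU : IsOpen {z : ℂ | τ.im / 2 < z.im} := isOpen_lt continuous_const Complex.continuous_im
  have h : DifferentiableOn ℂ (thetaC f m φ) {z : ℂ | τ.im / 2 < z.im} :=
    differentiableOn_tsum_of_summable_norm
      ((summable_thetaMajorant f (half_pos hτ')).mul_left (∑ h, ‖φ h‖))
      (fun x => (show Differentiable ℂ fun z => thetaTerm f m φ z x by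
        unfold thetaTerm; fun_prop).differentiableOn) hU
      fun x z hz => norm_thetaTerm_le f m φ (le_of_lt hz) x
  exact (h.differentiableAt (hU.mem_nhds (half_lt_self hτ'))).differentiableWithinAt

/-- `(h, n) ↦ h + m n`. -/
def cosetEquiv : (ZMod m × ZMod m) × (ℤ × ℤ) ≃ ℤ × ℤ where
  toFun p := (p.1.1.val + m * p.2.1, p.1.2.val + m * p.2.2)
  invFun x := (vecCast m x, (x.1 / m, x.2 / m))
  left_inv p := by
    have hm : (m : ℤ) ≠ 0 := by exact_mod_cast NeZero.ne m
    have h : ∀ z : ZMod m, ((z.val : ℤ)) / m = 0 := fun z =>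
      Int.ediv_eq_zero_of_lt (by positivity) (by exact_mod_cast ZMod.val_lt z)
    simp only [vecCast, Int.add_mul_ediv_left _ _ hm, h, zero_add]
    ext <;> simp
  right_inv x := by
    simp only [vecCast, ZMod.val_intCast]
    ext <;> simp [Int.emod_add_mul_ediv]

theorem vecCast_cosetEquiv (h : ZMod m × ZMod m) (n : ℤ × ℤ) :
    vecCast m (cosetEquiv m (h, n)) = h := by
  simp [cosetEquiv, vecCast]

theorem thetaTerm_cosetEquiv (τ : ℂ) (h : ZMod m × ZMod m) (n : ℤ × ℤ) :
    thetaTerm f m φ τ (cosetEquiv m (h, n)) = φ h * binaryThetaTerm f.toReal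
      ((h.1.val : ℝ) / m, (h.2.val : ℝ) / m) (0, 0) ((m : ℂ) ^ 2 * τ) n := by
  have hm : (m : ℂ) ≠ 0 := by exact_mod_cast NeZero.ne m
  rw [thetaTerm, vecCast_cosetEquiv, binaryThetaTerm, expTwoPiI]
  congr 2
  simp only [PosBinaryForm.eval, PosForm.toReal, PosForm.eval, cosetEquiv, Equiv.coe_fn_mk]
  push_cast
  field_simp
  ring

theorem thetaC_eq_sum_binaryTheta {τ : ℂ} (hτ : 0 < τ.im) :
    thetaC f m φ τ = ∑ h : ZMod m × ZMod m, φ h * binaryTheta f.toReal
      ((h.1.val : ℝ) / m, (h.2.val : ℝ) / m) (0, 0) ((m : ℂ) ^ 2 * τ) := by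
  rw [thetaC_eq_tsum, ← (cosetEquiv m).tsum_eq]
  refine (Summable.tsum_prod (((cosetEquiv m).summable_iff).mpr
    (summable_thetaTerm f m φ hτ))).trans ?_
  rw [tsum_fintype]
  refine Finset.sum_congr rfl fun h _ => ?_
  simp only [Function.comp_apply, thetaTerm_cosetEquiv, binaryTheta, tsum_mul_left]

theorem thetaC_add_intCast_div (j : ℤ) (τ : ℂ) :
    thetaC f m φ (τ + j / m) =
      thetaC f m (fun x => φ x * ZMod.stdAddChar ((j : ZMod m) * f.eval x)) τ := by
  refine tsum_congr fun x => ?_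
  rw [mul_assoc (φ _)]
  congr 1
  have hval : (j : ZMod m) * f.eval (vecCast m x) = ((j * f.eval x : ℤ) : ZMod m) := by
    push_cast
    rw [f.eval_intCast x]
    rfl
  rw [hval, ZMod.stdAddChar_coe, ← Complex.exp_add]
  push_cast
  congr 1
  field_simp
  ring

theorem thetaC_inversion {w : ℂ} (hw : 0 < w.im) :
    thetaC f m φ (-1 / w) = -I * w / (Real.sqrt f.disc * m ^ 2) *
      thetaC f.adj m (fourier2 m φ) (w / (f.disc * m ^ 2)) := by
  have hm : (m : ℂ) ≠ 0 := by exact_mod_cast NeZero.ne m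
  have hw0 : w ≠ 0 := fun h => by simp [h] at hw
  have him : 0 < (-1 / w).im := by
    rw [neg_div, Complex.neg_im, one_div, Complex.inv_im, neg_div, neg_neg]
    exact div_pos hw (Complex.normSq_pos.mpr hw0)
  have him' : 0 < ((m : ℂ) ^ 2 * (-1 / w)).im := by
    rw [show (m : ℂ) ^ 2 = ((m ^ 2 : ℝ) : ℂ) by push_cast; rfl, Complex.im_ofReal_mul]
    exact mul_pos (by have := NeZero.pos m; positivity) him
  have hdiv : 0 < (w / (f.disc * m ^ 2)).im := by
    rw [show (f.disc : ℂ) * m ^ 2 = ((f.disc * m ^ 2 : ℝ) : ℂ) by push_cast; rfl,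
      Complex.div_ofReal_im]
    exact div_pos hw (by have := f.disc_pos; have := NeZero.pos m; positivity)
  set K : ℂ := -I * w / (Real.sqrt f.disc * m ^ 2) with hK
  have hterm : ∀ (h : ZMod m × ZMod m) (y : ℤ × ℤ),
      expTwoPiI (-(f.toReal.dual.eval ((y.1 : ℝ) - 0) ((y.2 : ℝ) - 0) : ℝ) /
          (f.toReal.delta * ((m : ℂ) ^ 2 * (-1 / w))) +
        ((((y.1 : ℝ) - 0) * ((h.1.val : ℝ) / m) + ((y.2 : ℝ) - 0) * ((h.2.val : ℝ) / m) : ℝ) : ℂ)) =
      ZMod.stdAddChar (dot h (vecCast m y)) *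
        cexp (2 * π * I * (f.adj.eval y : ℤ) * (w / (f.disc * m ^ 2))) := by
    intro h y
    have hd : dot h (vecCast m y) =
        (((h.1.val : ℤ) * y.1 + (h.2.val : ℤ) * y.2 : ℤ) : ZMod m) := by
      simp [dot, vecCast]
    rw [hd, ZMod.stdAddChar_coe, ← Complex.exp_add, expTwoPiI, sub_zero, sub_zero,
      toReal_dual_eval, toReal_delta]
    congr 1
    have hΔ : (f.disc : ℂ) ≠ 0 := by exact_mod_cast f.disc_pos.ne'
    push_cast
    field_simp
    ring
  have hfac : I / ((m : ℂ) ^ 2 * (-1 / w) * Real.sqrt f.toReal.delta) = K := by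
    have hsq : (Real.sqrt f.disc : ℂ) ≠ 0 := by
      exact_mod_cast (Real.sqrt_pos.mpr (by exact_mod_cast f.disc_pos : (0 : ℝ) < f.disc)).ne'
    rw [toReal_delta, hK]
    field_simp
  have hsum : ∀ h : ZMod m × ZMod m, Summable fun y : ℤ × ℤ => φ h *
      (ZMod.stdAddChar (dot h (vecCast m y)) *
        cexp (2 * π * I * (f.adj.eval y : ℤ) * (w / (f.disc * m ^ 2)))) := fun h =>
    ((summable_thetaTerm f.adj m (fun x => ZMod.stdAddChar (dot h x)) hdiv).mul_left _).congr
      fun y => by rw [thetaTerm]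
  rw [thetaC_eq_sum_binaryTheta f m φ him]
  simp only [binaryTheta_inversion _ _ _ him', hterm, hfac, mul_left_comm _ K]
  rw [← Finset.mul_sum]
  congr 1
  simp only [← tsum_mul_left]
  rw [← Summable.tsum_finsetSum fun h _ => hsum h]
  refine tsum_congr fun y => ?_
  rw [fourier2, Finset.sum_mul]
  exact Finset.sum_congr rfl fun h _ => by ring

end Fermat.Agent.TwoAdic.Theta
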