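import Mathlib.NumberTheory.GaussSum
import Mathlib.NumberTheory.LegendreSymbol.Basic
import Mathlib.NumberTheory.LegendreSymbol.QuadraticChar.Basic
import Mathlib.Analysis.SpecialFunctions.Complex.CircleAddChar

/-!
# Gauss sums of binary quadratic forms over `ZMod p`
-/

set_option autoImplicit false

noncomputable section

namespace Fermat.Agent.TwoAdic

open Finset

variable {p : ℕ} [Fact p.Prime]

/-- The quadratic character of `ZMod p` with complex values. -/
def quadCharC (p : ℕ) [Fact p.Prime] : MulChar (ZMod p) ℂ :=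
  (quadraticChar (ZMod p)).ringHomComp (Int.castRingHom ℂ)

theorem quadCharC_apply (a : ZMod p) : quadCharC p a = (quadraticChar (ZMod p) a : ℂ) := rfl

theorem ringChar_zmod_ne_two (hp : p ≠ 2) : ringChar (ZMod p) ≠ 2 := by
  rwa [ZMod.ringChar_zmod_n]

theorem four_ne_zero_zmod (hp : p ≠ 2) : (4 : ZMod p) ≠ 0 := by
  have h2 : (2 : ZMod p) ≠ 0 := Ring.two_ne_zero (ringChar_zmod_ne_two hp)
  simpa [show (4 : ZMod p) = 2 * 2 by norm_num] using h2

/-- `∑ₓ ψ(A x²) = (A/p) g`. -/
theorem sum_addChar_mul_sq (hp : p ≠ 2) {A : ZMod p} (hA : A ≠ 0) :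
    ∑ x : ZMod p, ZMod.stdAddChar (A * x ^ 2) =
      quadCharC p A * gaussSum (quadCharC p) ZMod.stdAddChar := by
  classical
  set ψ := ZMod.stdAddChar (N := p)
  have hψ : ψ.IsPrimitive := ZMod.isPrimitive_stdAddChar p
  have hcount : ∀ t : ZMod p,
      ((#(univ.filter fun x : ZMod p => x ^ 2 = t) : ℕ) : ℂ) = quadCharC p t + 1 := by
    intro t
    have h := quadraticChar_card_sqrts (ringChar_zmod_ne_two hp) t
    have hset : ({x : ZMod p | x ^ 2 = t}.toFinset) = univ.filter fun x : ZMod p => x ^ 2 = t := by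
      ext; simp
    rw [hset] at h
    rw [quadCharC_apply]
    exact_mod_cast h
  have hzero : ∑ t : ZMod p, ψ (A * t) = 0 := by
    have h := AddChar.sum_mulShift A hψ
    rw [if_neg hA, Nat.cast_zero] at h
    rw [← h]
    exact Finset.sum_congr rfl fun t _ => by rw [mul_comm]
  rw [← Finset.sum_fiberwise univ (fun x : ZMod p => x ^ 2) (fun x => ψ (A * x ^ 2))]
  calc ∑ t, ∑ x ∈ univ.filter (fun x : ZMod p => x ^ 2 = t), ψ (A * x ^ 2)
      = ∑ t, (quadCharC p t + 1) * ψ (A * t) := by
        refine Finset.sum_congr rfl fun t _ => ?_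
        rw [← hcount t, Finset.sum_congr rfl (fun x hx => by
          rw [(Finset.mem_filter.mp hx).2]), Finset.sum_const, nsmul_eq_mul]
    _ = gaussSum (quadCharC p) (ψ.mulShift A) := by
        simp only [add_mul, one_mul, Finset.sum_add_distrib, hzero, add_zero]
        rfl
    _ = _ := by
        rw [show A = ((Units.mk0 A hA : (ZMod p)ˣ) : ZMod p) from rfl, gaussSum_mulShift_eq]
        congr 1
        rw [show (quadCharC p)⁻¹ = quadCharC p from
          ((quadraticChar_isQuadratic (ZMod p)).comp (Int.castRingHom ℂ)).inv]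

theorem gaussSum_quadCharC_sq (hp : p ≠ 2) :
    gaussSum (quadCharC p) ZMod.stdAddChar ^ 2 = quadCharC p (-1) * p := by
  have hne : quadCharC p ≠ 1 := by
    rw [quadCharC, MulChar.ringHomComp_ne_one_iff (Int.cast_injective (α := ℂ))]
    exact quadraticChar_ne_one (ringChar_zmod_ne_two hp)
  rw [gaussSum_sq hne ((quadraticChar_isQuadratic (ZMod p)).comp (Int.castRingHom ℂ))
    (ZMod.isPrimitive_stdAddChar p), ZMod.card]

/-- The Gauss sum of a non-degenerate binary quadratic form modulo an odd prime. -/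
theorem sum_stdAddChar_binary (hp : p ≠ 2) {a b c : ℤ} (ha : ¬ (p : ℤ) ∣ a)
    (hΔ : ¬ (p : ℤ) ∣ 4 * a * c - b ^ 2) {s : ZMod p} (hs : s ≠ 0) :
    ∑ z : ZMod p × ZMod p,
        ZMod.stdAddChar (s * ((a : ZMod p) * z.1 ^ 2 + (b : ZMod p) * z.1 * z.2 + (c : ZMod p) * z.2 ^ 2)) =
      (legendreSym p (-(4 * a * c - b ^ 2)) : ℂ) * p := by
  classical
  set A : ZMod p := (a : ZMod p) with hAdef
  set B : ZMod p := (b : ZMod p)
  set C : ZMod p := (c : ZMod p)
  have hA : A ≠ 0 := fun h => ha ((ZMod.intCast_zmod_eq_zero_iff_dvd a p).mp h)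
  have h4 := four_ne_zero_zmod hp
  have h2 : (2 : ZMod p) ≠ 0 := Ring.two_ne_zero (ringChar_zmod_ne_two hp)
  set D : ZMod p := ((4 * a * c - b ^ 2 : ℤ) : ZMod p) with hDdef
  have hD : D ≠ 0 := fun h => hΔ ((ZMod.intCast_zmod_eq_zero_iff_dvd _ p).mp h)
  have hD' : D = 4 * A * C - B ^ 2 := by simp only [hDdef]; push_cast; rfl
  set E : ZMod p := D / (4 * A) with hE
  have hE0 : E ≠ 0 := div_ne_zero hD (mul_ne_zero h4 hA)
  let e : ZMod p × ZMod p ≃ ZMod p × ZMod p :=
    { toFun := fun z => (z.1 + B / (2 * A) * z.2, z.2)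
      invFun := fun z => (z.1 - B / (2 * A) * z.2, z.2)
      left_inv := fun z => by simp
      right_inv := fun z => by simp }
  calc ∑ z : ZMod p × ZMod p, ZMod.stdAddChar (s * (A * z.1 ^ 2 + B * z.1 * z.2 + C * z.2 ^ 2))
      = ∑ z : ZMod p × ZMod p,
          ZMod.stdAddChar (s * A * z.1 ^ 2) * ZMod.stdAddChar (s * E * z.2 ^ 2) := by
        refine Fintype.sum_equiv e _ _ fun z => ?_
        rw [← AddChar.map_add_eq_mul]
        congr 1
        simp only [e, Equiv.coe_fn_mk, hE, hD']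
        field_simp
        ring
    _ = (∑ x : ZMod p, ZMod.stdAddChar (s * A * x ^ 2)) *
          ∑ y : ZMod p, ZMod.stdAddChar (s * E * y ^ 2) := by
        rw [Finset.sum_mul_sum, Fintype.sum_prod_type]
    _ = quadCharC p (s * A) * quadCharC p (s * E) *
          gaussSum (quadCharC p) ZMod.stdAddChar ^ 2 := by
        rw [sum_addChar_mul_sq hp (mul_ne_zero hs hA), sum_addChar_mul_sq hp (mul_ne_zero hs hE0)]
        ring
    _ = _ := by
        rw [gaussSum_quadCharC_sq hp, ← mul_assoc, ← map_mul, ← map_mul]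
        congr 1
        have hsq : s * A * (s * E) * -1 = (s * (2 : ZMod p)⁻¹) ^ 2 * (-D) := by
          rw [hE]
          field_simp
          ring
        rw [hsq, map_mul, quadCharC_apply, quadCharC_apply,
          quadraticChar_sq_one' (mul_ne_zero hs (inv_ne_zero h2)), Int.cast_one, one_mul]
        simp [legendreSym, hDdef]

end Fermat.Agent.TwoAdic
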