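import Fermat.Agent.TwoAdic.Theta.Defs
import Fermat.Agent.TwoAdic.Theta.Gauss
import Mathlib.NumberTheory.LegendreSymbol.Basic
import Mathlib.NumberTheory.LegendreSymbol.QuadraticChar.Basic

/-!
# The quadratic Gauss sum of a positive binary form at an odd prime

Owner: helper76 (LT2, P3a).
-/

set_option autoImplicit false

noncomputable section

namespace Fermat.Agent.TwoAdic.Theta

open PosForm Finset

variable {p : ℕ} [hp : Fact p.Prime]

variable (f : PosForm)

/-- The Gauss sum of a binary form at an odd prime not dividing the discriminant. -/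
theorem gauss2_prime (hp2 : p ≠ 2) (hd : (f.disc : ZMod p) ≠ 0) {s : ZMod p} (hs : s ≠ 0) :
    gauss2 f p s = (legendreSym p (-(f.disc : ℤ)) : ℂ) * p := by
  classical
  have hF : ringChar (ZMod p) ≠ 2 := by rwa [ZMod.ringChar_zmod_n]
  have h2 : (2 : ZMod p) ≠ 0 := by
    intro h
    have : (p : ℕ) ∣ 2 := (ZMod.natCast_eq_zero_iff 2 p).mp (by exact_mod_cast h)
    exact hp2 ((Nat.prime_dvd_prime_iff_eq hp.out Nat.prime_two).mp this)
  rw [legendreSym]
  push_cast
  rw [gauss2, Fintype.sum_prod_type_right]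
  set A : ZMod p := (f.a : ZMod p) with hA
  set B : ZMod p := (f.b : ZMod p) with hB
  set C : ZMod p := (f.c : ZMod p) with hC
  have hdisc : (f.disc : ZMod p) = 4 * A * C - B ^ 2 := f.disc_cast (ZMod p)
  by_cases hA0 : A = 0
  · have hB0 : B ≠ 0 := fun h => hd (by rw [hdisc, hA0, h]; ring)
    have hinner : ∀ y : ZMod p, ∑ x : ZMod p, ZMod.stdAddChar (s * f.eval (x, y)) =
        if y = 0 then (p : ℂ) else 0 := by
      intro y
      have : ∀ x : ZMod p, ZMod.stdAddChar (s * f.eval (x, y)) =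
          ZMod.stdAddChar (x * (s * B * y)) * ZMod.stdAddChar (s * C * y ^ 2) := fun x => by
        rw [← AddChar.map_add_eq_mul, PosForm.eval, ← hA, ← hB, ← hC, hA0]
        ring_nf
      rw [sum_congr rfl fun x _ => this x, ← sum_mul,
        AddChar.sum_mulShift _ (ZMod.isPrimitive_stdAddChar p)]
      by_cases hy : y = 0
      · simp [hy]
      · simp [hy, hs, hB0]
    rw [sum_congr rfl fun y _ => hinner y, Finset.sum_ite_eq', if_pos (mem_univ _)]
    rw [hdisc, hA0, show -(4 * 0 * C - B ^ 2) = B ^ 2 by ring,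
      quadraticChar_sq_one' hB0, Int.cast_one, one_mul]
  · have ha : ¬ (p : ℤ) ∣ f.a := fun h => hA0 ((ZMod.intCast_zmod_eq_zero_iff_dvd _ _).mpr h)
    have hΔ : ¬ (p : ℤ) ∣ 4 * f.a * f.c - f.b ^ 2 := fun h => hd (by
      rw [← Int.cast_natCast, f.coe_disc, (ZMod.intCast_zmod_eq_zero_iff_dvd _ _).mpr h])
    have h := sum_stdAddChar_binary hp2 ha hΔ hs
    rw [← f.coe_disc, legendreSym] at h
    push_cast at h
    rw [← h, Fintype.sum_prod_type_right]
    refine sum_congr rfl fun y _ => sum_congr rfl fun x _ => ?_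
    rw [PosForm.eval]
    ring_nf

end Fermat.Agent.TwoAdic.Theta
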