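import Fermat.Agent.TwoAdic.Theta.SlashFormula
import Fermat.Agent.TwoAdic.Theta.GaussPrime
import Mathlib.NumberTheory.DirichletCharacter.Basic
import Mathlib.NumberTheory.LSeries.PrimesInAP
import Mathlib.NumberTheory.Modular

/-!
# The character of a binary theta series

The theta series of `f` is an eigenvector of `Γ₀(Δ)`; comparing with the Gauss sum at a large prime
`p ≡ d` identifies the eigenvalue with the quadratic symbol `(-Δ/p)`.

Owner: helper76 (LT2, P3a).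
-/

set_option autoImplicit false
set_option linter.style.haveILetI false

noncomputable section

namespace Fermat.Agent.TwoAdic.Theta

open PosForm CongruenceSubgroup UpperHalfPlane
open scoped MatrixGroups ModularForm Real

variable (f : PosForm)

theorem slash_upper_eq_self (m : ℕ) [NeZero m] (φ : ZMod m × ZMod m → ℂ) {γ : SL(2, ℤ)}
    (hγ : γ ∈ Gamma0 (f.disc * m ^ 2)) (hd : γ 1 1 = 1) :
    thetaH f m φ ∣[(1 : ℤ)] γ = thetaH f m φ := by
  have h := thetaH_slash_of_pos f m φ (d := 1) hγ (by simpa using hd)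
  have hg : ∀ s : ZMod 1, gauss2 f 1 s = 1 := fun s => by
    rw [gauss2, Fintype.sum_subsingleton _ (0 : ZMod 1 × ZMod 1),
      Subsingleton.elim (s * f.eval (0 : ZMod 1 × ZMod 1)) 0, AddChar.map_zero_eq_one]
  have hdil : dilate ((1 : ℕ) : ZMod m) φ = φ := funext fun x => by simp [dilate]
  rw [hg, hdil, Nat.cast_one, div_one, one_smul] at h
  exact h

theorem T_zpow_mem_Gamma0 (N : ℕ) (n : ℤ) : ModularGroup.T ^ n ∈ Gamma0 N := by
  simp [Gamma0_mem, ModularGroup.coe_T_zpow]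

theorem slash_T_zpow (m : ℕ) [NeZero m] (φ : ZMod m × ZMod m → ℂ) (n : ℤ) :
    thetaH f m φ ∣[(1 : ℤ)] (ModularGroup.T ^ n) = thetaH f m φ :=
  slash_upper_eq_self f m φ (T_zpow_mem_Gamma0 _ n) (by simp [ModularGroup.coe_T_zpow])

theorem mul_T_zpow_lowerRight (γ : SL(2, ℤ)) (n : ℤ) :
    (γ * ModularGroup.T ^ n) 1 1 = γ 1 1 + n * γ 1 0 ∧ (γ * ModularGroup.T ^ n) 1 0 = γ 1 0 := by
  simp [Matrix.SpecialLinearGroup.coe_mul, ModularGroup.coe_T_zpow, Matrix.mul_apply,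
    Fin.sum_univ_two]
  ring

/-- The lower triangular matrix `(1 0; N 1)`. -/
def lowerUnip (N : ℤ) : SL(2, ℤ) := ⟨!![1, 0; N, 1], by simp [Matrix.det_fin_two]⟩

theorem coe_lowerUnip (N : ℤ) : ((lowerUnip N : SL(2, ℤ)) : Matrix (Fin 2) (Fin 2) ℤ) = !![1, 0; N, 1] :=
  rfl

theorem lowerUnip_mem_Gamma0 {N : ℕ} {j : ℤ} (h : (N : ℤ) ∣ j) : lowerUnip j ∈ Gamma0 N := by
  rw [Gamma0_mem]
  simpa [coe_lowerUnip, ZMod.intCast_zmod_eq_zero_iff_dvd] using h

theorem mul_lowerUnip (γ : SL(2, ℤ)) (N : ℤ) :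
    (γ * lowerUnip N) 1 0 = γ 1 0 + γ 1 1 * N ∧ (γ * lowerUnip N) 1 1 = γ 1 1 := by
  simp [Matrix.SpecialLinearGroup.coe_mul, coe_lowerUnip, Matrix.mul_apply, Fin.sum_univ_two]

theorem lowerRight_ne_zero_of_eq_zero {γ : SL(2, ℤ)} (h : γ 1 0 = 0) : γ 1 1 ≠ 0 := fun h1 => by
  have := γ.det_coe
  rw [Matrix.det_fin_two, h, h1] at this
  simp at this

/-- The theta series of `f` itself. -/
def thetaOne : ℍ → ℂ := thetaH f 1 fun _ => 1

theorem exists_thetaOne_ne_zero : ∃ τ : ℍ, thetaOne f τ ≠ 0 := by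
  refine ⟨UpperHalfPlane.I, ?_⟩
  have hterm : ∀ x : ℤ × ℤ, thetaTerm f 1 (fun _ => 1) (UpperHalfPlane.I : ℂ) x =
      ((Real.exp (-2 * π * (f.eval x : ℤ)) : ℝ) : ℂ) := fun x => by
    rw [thetaTerm, one_mul, Complex.ofReal_exp, UpperHalfPlane.coe_I]
    push_cast
    ring_nf
    rw [Complex.I_sq]
    ring_nf
  have hs : Summable fun x : ℤ × ℤ => Real.exp (-2 * π * (f.eval x : ℤ)) := by
    refine (summable_thetaMajorant f one_pos).congr fun x => ?_
    rw [thetaMajorant, one_mul, toReal_eval f x]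
  rw [thetaOne, thetaH, thetaC_eq_tsum, tsum_congr hterm, ← Complex.ofReal_tsum]
  exact_mod_cast (hs.tsum_pos (fun x => (Real.exp_pos _).le) 0 (Real.exp_pos _)).ne'

theorem smul_thetaOne_injective {c c' : ℂ} (h : c • thetaOne f = c' • thetaOne f) : c = c' := by
  obtain ⟨τ, hτ⟩ := exists_thetaOne_ne_zero f
  exact mul_right_cancel₀ hτ (congrFun h τ)

/-- The quadratic symbol `(-Δ/p)`. -/
def legSign (p : ℕ) [Fact p.Prime] : ℂ := (legendreSym p (-(f.disc : ℤ)) : ℂ)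

theorem mem_Gamma0_one {γ : SL(2, ℤ)} (hγ : γ ∈ Gamma0 f.disc) :
    γ ∈ Gamma0 (f.disc * 1 ^ 2) := by simpa using hγ

theorem dilate_const (d : ZMod 1) : dilate d (fun _ : ZMod 1 × ZMod 1 => (1 : ℂ)) = fun _ => 1 :=
  rfl

theorem thetaOne_slash_prime {γ : SL(2, ℤ)} (hγ : γ ∈ Gamma0 f.disc) {p : ℕ} [Fact p.Prime]
    (hp2 : p ≠ 2) (hpd : ¬ p ∣ f.disc) (hd : γ 1 1 = (p : ℤ)) :
    thetaOne f ∣[(1 : ℤ)] γ = legSign f p • thetaOne f := by
  have hb : ((γ 0 1 : ℤ) : ZMod p) ≠ 0 := fun h => by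
    have hdet := congrArg (Int.cast : ℤ → ZMod p) γ.det_coe
    rw [Matrix.det_fin_two, hd] at hdet
    push_cast at hdet
    simp [h] at hdet
  have h := thetaH_slash_of_pos f 1 (fun _ => 1) (d := p) (mem_Gamma0_one f hγ) hd
  rw [gauss2_prime f hp2 (by rwa [Ne, ZMod.natCast_eq_zero_iff]) hb,
    mul_div_cancel_right₀ _ (by exact_mod_cast NeZero.ne p : (p : ℂ) ≠ 0), dilate_const] at h
  exact h

theorem thetaOne_slash_of_modEq {γ : SL(2, ℤ)} (hγ : γ ∈ Gamma0 f.disc) {p : ℕ} [Fact p.Prime]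
    (hp2 : p ≠ 2) (hpd : ¬ p ∣ f.disc) (hmod : γ 1 0 ∣ (p : ℤ) - γ 1 1) :
    thetaOne f ∣[(1 : ℤ)] γ = legSign f p • thetaOne f := by
  obtain ⟨n, hn⟩ := hmod
  have h := thetaOne_slash_prime f (mul_mem hγ (T_zpow_mem_Gamma0 _ n)) hp2 hpd
    (by rw [(mul_T_zpow_lowerRight γ n).1]; linear_combination -hn)
  rw [show γ = (γ * ModularGroup.T ^ n) * ModularGroup.T ^ (-n) by
    rw [mul_assoc, ← zpow_add, add_neg_cancel, zpow_zero, mul_one], SlashAction.slash_mul, h,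
    ModularForm.SL_smul_slash]
  exact congrArg _ (slash_T_zpow f 1 _ (-n))

theorem exists_gamma0_disc (u : (ZMod f.disc)ˣ) :
    ∃ γ ∈ Gamma0 f.disc, γ 1 0 = (f.disc : ℤ) ∧ ((γ 1 1 : ℤ) : ZMod f.disc) = u := by
  obtain ⟨a, b, hab⟩ : IsCoprime ((u : ZMod f.disc).val : ℤ) (f.disc : ℤ) :=
    Nat.isCoprime_iff_coprime.mpr (ZMod.val_coe_unit_coprime u)
  refine ⟨⟨!![a, -b; (f.disc : ℤ), ((u : ZMod f.disc).val : ℤ)], ?_⟩, ?_, rfl, ?_⟩
  · rw [Matrix.det_fin_two_of]; linear_combination hab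
  · refine Gamma0_mem.mpr ?_
    show ((f.disc : ℤ) : ZMod f.disc) = 0
    simp
  · simp

theorem legSign_congr {p q : ℕ} [Fact p.Prime] [Fact q.Prime] (hp2 : p ≠ 2) (hpd : ¬ p ∣ f.disc)
    (hq2 : q ≠ 2) (hqd : ¬ q ∣ f.disc) (h : (p : ZMod f.disc) = q) :
    legSign f p = legSign f q := by
  have hu : IsUnit ((p : ℕ) : ZMod f.disc) :=
    (ZMod.isUnit_iff_coprime _ _).mpr ((Fact.out : p.Prime).coprime_iff_not_dvd.mpr hpd)
  obtain ⟨γ, hγ, hc, hd⟩ := exists_gamma0_disc f hu.unit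
  rw [IsUnit.unit_spec] at hd
  have hdvd : ∀ r : ℕ, (r : ZMod f.disc) = p → γ 1 0 ∣ (r : ℤ) - γ 1 1 := fun r hr => by
    rw [hc, ← ZMod.intCast_zmod_eq_zero_iff_dvd]
    push_cast
    rw [hd, hr, sub_self]
  exact smul_thetaOne_injective f
    ((thetaOne_slash_of_modEq f hγ hp2 hpd (hdvd p rfl)).symm.trans
      (thetaOne_slash_of_modEq f hγ hq2 hqd (hdvd q h.symm)))

theorem exists_good_prime (u : (ZMod f.disc)ˣ) :
    ∃ p : ℕ, p.Prime ∧ p ≠ 2 ∧ ¬ p ∣ f.disc ∧ (p : ZMod f.disc) = u := by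
  obtain ⟨p, hp, hprime, hpu⟩ := Nat.forall_exists_prime_gt_and_eq_mod u.isUnit (f.disc + 2)
  exact ⟨p, hprime, by omega, fun h => by have := Nat.le_of_dvd f.disc_pos h; omega, hpu⟩

/-- The eigenvalue attached to a unit mod `Δ`. -/
def charVal (u : (ZMod f.disc)ˣ) : ℂ :=
  haveI : Fact (exists_good_prime f u).choose.Prime := ⟨(exists_good_prime f u).choose_spec.1⟩
  legSign f (exists_good_prime f u).choose

theorem charVal_eq_legSign {u : (ZMod f.disc)ˣ} {p : ℕ} [Fact p.Prime] (hp2 : p ≠ 2)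
    (hpd : ¬ p ∣ f.disc) (hpu : (p : ZMod f.disc) = u) : charVal f u = legSign f p := by
  have hs := (exists_good_prime f u).choose_spec
  haveI : Fact (exists_good_prime f u).choose.Prime := ⟨hs.1⟩
  exact legSign_congr f hs.2.1 hs.2.2.1 hp2 hpd (hs.2.2.2.trans hpu.symm)

theorem thetaOne_slash {γ : SL(2, ℤ)} (hγ : γ ∈ Gamma0 f.disc) {u : (ZMod f.disc)ˣ}
    (hu : ((γ 1 1 : ℤ) : ZMod f.disc) = u) :
    thetaOne f ∣[(1 : ℤ)] γ = charVal f u • thetaOne f := by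
  have main : ∀ δ : SL(2, ℤ), δ ∈ Gamma0 f.disc → δ 1 0 ≠ 0 →
      ((δ 1 1 : ℤ) : ZMod f.disc) = u → thetaOne f ∣[(1 : ℤ)] δ = charVal f u • thetaOne f := by
    intro δ hδ hc hd
    have hdisc : (f.disc : ℤ) ∣ δ 1 0 :=
      (ZMod.intCast_zmod_eq_zero_iff_dvd _ _).mp (Gamma0_mem.mp hδ)
    set c := (δ 1 0).natAbs with hcdef
    haveI : NeZero c := ⟨by omega⟩
    have hdet := congrArg (Int.cast : ℤ → ZMod c) δ.det_coe
    have hc0 : ((δ 1 0 : ℤ) : ZMod c) = 0 :=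
      (ZMod.intCast_zmod_eq_zero_iff_dvd _ _).mpr (Int.natAbs_dvd.mpr dvd_rfl)
    rw [Matrix.det_fin_two] at hdet
    push_cast at hdet
    rw [hc0, mul_zero, sub_zero] at hdet
    obtain ⟨p, hp, hprime, hpd'⟩ :=
      Nat.forall_exists_prime_gt_and_eq_mod (IsUnit.of_mul_eq_one_right _ hdet) (f.disc + 2)
    haveI : Fact p.Prime := ⟨hprime⟩
    have hp2 : p ≠ 2 := by omega
    have hpnd : ¬ p ∣ f.disc := fun h => by have := Nat.le_of_dvd f.disc_pos h; omega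
    have hdvd : δ 1 0 ∣ (p : ℤ) - δ 1 1 := by
      rw [← Int.natAbs_dvd, ← hcdef, ← ZMod.intCast_zmod_eq_zero_iff_dvd]
      push_cast
      rw [hpd', sub_self]
    have hpu : (p : ZMod f.disc) = u := by
      have h := (ZMod.intCast_zmod_eq_zero_iff_dvd _ _).mpr (hdisc.trans hdvd)
      push_cast at h
      rw [← hd]
      linear_combination h
    rw [thetaOne_slash_of_modEq f hδ hp2 hpnd hdvd, charVal_eq_legSign f hp2 hpnd hpu]
  rcases ne_or_eq (γ 1 0) 0 with hc | hc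
  · exact main γ hγ hc hu
  · have hd0 := lowerRight_ne_zero_of_eq_zero hc
    have h1 := main (γ * lowerUnip (f.disc : ℤ)) (mul_mem hγ (lowerUnip_mem_Gamma0 dvd_rfl))
      (by rw [(mul_lowerUnip γ _).1, hc, zero_add]
          exact mul_ne_zero hd0 (by exact_mod_cast f.disc_pos.ne'))
      (by rw [(mul_lowerUnip γ _).2]; exact hu)
    have h2 : thetaOne f ∣[(1 : ℤ)] lowerUnip (-(f.disc : ℤ)) = thetaOne f :=
      slash_upper_eq_self f 1 _ (mem_Gamma0_one f (lowerUnip_mem_Gamma0 (dvd_neg.mpr dvd_rfl)))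
        (by simp [coe_lowerUnip])
    have h3 : lowerUnip (f.disc : ℤ) * lowerUnip (-(f.disc : ℤ)) = 1 := by
      ext i j
      fin_cases i <;> fin_cases j <;> simp [coe_lowerUnip, Matrix.mul_apply, Fin.sum_univ_two]
    have h4 : (γ * lowerUnip (f.disc : ℤ)) * lowerUnip (-(f.disc : ℤ)) = γ := by
      rw [mul_assoc, h3, mul_one]
    rw [← h4, SlashAction.slash_mul, h1, ModularForm.SL_smul_slash, h2]

theorem charVal_mul (u v : (ZMod f.disc)ˣ) : charVal f (u * v) = charVal f u * charVal f v := by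
  obtain ⟨γ, hγ, hcγ, hdγ⟩ := exists_gamma0_disc f u
  obtain ⟨δ, hδ, hcδ, hdδ⟩ := exists_gamma0_disc f v
  have hd : (((γ * δ) 1 1 : ℤ) : ZMod f.disc) = (u * v : (ZMod f.disc)ˣ) := by
    simp [Matrix.SpecialLinearGroup.coe_mul, Matrix.mul_apply, Fin.sum_univ_two, hcγ, hdγ, hdδ]
  refine smul_thetaOne_injective f ((thetaOne_slash f (mul_mem hγ hδ) hd).symm.trans ?_)
  rw [SlashAction.slash_mul, thetaOne_slash f hγ hdγ, ModularForm.SL_smul_slash,
    thetaOne_slash f hδ hdδ, smul_smul]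

theorem charVal_one : charVal f 1 = 1 := by
  refine smul_thetaOne_injective f ((thetaOne_slash f (one_mem _) (u := 1) (by simp)).symm.trans ?_)
  rw [SlashAction.slash_one, one_smul]

theorem charVal_neg_one : charVal f (-1) = -1 := by
  refine smul_thetaOne_injective f
    ((thetaOne_slash f (γ := -1) (by simp [Gamma0_mem]) (u := -1) (by simp)).symm.trans ?_)
  ext τ
  rw [ModularForm.SL_slash_apply, ModularGroup.SL_neg_smul, one_smul]
  simp [UpperHalfPlane.denom]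

/-- The character of the weight one theta series of `f`: the Kronecker symbol `(-disc / ·)`. -/
def PosForm.thetaChar : DirichletCharacter ℂ f.disc :=
  MulChar.ofUnitHom (MonoidHom.toHomUnits
    { toFun := charVal f
      map_one' := charVal_one f
      map_mul' := charVal_mul f })

theorem thetaChar_unit (u : (ZMod f.disc)ˣ) : f.thetaChar u = charVal f u := by
  simp [PosForm.thetaChar]

theorem thetaChar_apply_prime {p : ℕ} [Fact p.Prime] (hp : p ≠ 2) (hpd : ¬ p ∣ f.disc) :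
    f.thetaChar (p : ZMod f.disc) = (legendreSym p (-(f.disc : ℤ)) : ℂ) := by
  have hu : IsUnit ((p : ℕ) : ZMod f.disc) :=
    (ZMod.isUnit_iff_coprime _ _).mpr ((Fact.out : p.Prime).coprime_iff_not_dvd.mpr hpd)
  rw [← hu.unit_spec, thetaChar_unit, charVal_eq_legSign f hp hpd hu.unit_spec.symm]
  rfl

theorem thetaChar_neg_one : f.thetaChar (-1) = -1 := by
  rw [show (-1 : ZMod f.disc) = ((-1 : (ZMod f.disc)ˣ) : ZMod f.disc) by simp, thetaChar_unit,
    charVal_neg_one]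

theorem thetaOne_slash_thetaChar {γ : SL(2, ℤ)} (hγ : γ ∈ Gamma0 f.disc) :
    thetaOne f ∣[(1 : ℤ)] γ = f.thetaChar ((γ 1 1 : ℤ) : ZMod f.disc) • thetaOne f := by
  have hdet := congrArg (Int.cast : ℤ → ZMod f.disc) γ.det_coe
  rw [Matrix.det_fin_two] at hdet
  push_cast at hdet
  rw [Gamma0_mem.mp hγ, mul_zero, sub_zero] at hdet
  have hu : IsUnit ((γ 1 1 : ℤ) : ZMod f.disc) := IsUnit.of_mul_eq_one_right _ hdet
  rw [← hu.unit_spec, thetaChar_unit]
  exact thetaOne_slash f hγ hu.unit_spec.symm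

end Fermat.Agent.TwoAdic.Theta
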