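import Fermat.Agent.TwoAdic.Theta.Form
import Mathlib.Analysis.SpecialFunctions.Complex.CircleAddChar
import Mathlib.Analysis.Complex.UpperHalfPlane.Basic

/-!
# Periodic theta series of positive binary forms

`thetaC f m φ τ = ∑_{x ∈ ℤ²} φ (x mod m) e (f(x) τ)`.

Owner: helper76 (LT2, P3a).
-/

set_option autoImplicit false

noncomputable section

namespace Fermat.Agent.TwoAdic.Theta

open Complex PosForm
open scoped Real

/-- Reduction of an integer vector mod `m`. -/
def vecCast (m : ℕ) (x : ℤ × ℤ) : ZMod m × ZMod m := ((x.1 : ZMod m), (x.2 : ZMod m))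

/-- The theta series of `f` weighted by a function periodic mod `m`. -/
def thetaC (f : PosForm) (m : ℕ) (φ : ZMod m × ZMod m → ℂ) (τ : ℂ) : ℂ :=
  ∑' x : ℤ × ℤ, φ (vecCast m x) * cexp (2 * π * I * (f.eval x : ℤ) * τ)

/-- `thetaC` on the upper half plane. -/
def thetaH (f : PosForm) (m : ℕ) (φ : ZMod m × ZMod m → ℂ) : UpperHalfPlane → ℂ :=
  fun τ => thetaC f m φ (τ : ℂ)

/-- The Fourier transform on `(ℤ/m)²`. -/
def fourier2 (m : ℕ) [NeZero m] (φ : ZMod m × ZMod m → ℂ) (y : ZMod m × ZMod m) : ℂ :=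
  ∑ x : ZMod m × ZMod m, φ x * ZMod.stdAddChar (dot x y)

/-- The quadratic Gauss sum `∑ e(s f(z)/d)` over `(ℤ/d)²`. -/
def gauss2 (f : PosForm) (d : ℕ) [NeZero d] (s : ZMod d) : ℂ :=
  ∑ z : ZMod d × ZMod d, ZMod.stdAddChar (s * f.eval z)

/-- Multiplication of the argument of a weight by a scalar. -/
def dilate {m : ℕ} (t : ZMod m) (φ : ZMod m × ZMod m → ℂ) : ZMod m × ZMod m → ℂ :=
  fun x => φ (t • x)

/-- The representations of `n` by `f`. -/
def repsOf (f : PosForm) (n : ℕ) : Set (ℤ × ℤ) := {x | f.eval x = n}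

end Fermat.Agent.TwoAdic.Theta
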