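import Fermat.Agent.TwoAdic.Theta.Main

/-!
# The action of `Γ₀(Δ)` on scaled theta series

`thetaScaled f m φ τ = θ_φ(τ / m)`; the translations, the elements congruent to diagonal ones
mod `m` and the lower unipotents act through the Weil representation, and they generate.

Owner: helper76 (LT2, P3a).
-/

set_option autoImplicit false
set_option linter.style.haveILetI false
set_option linter.unusedSimpArgs false

noncomputable section

namespace Fermat.Agent.TwoAdic.Theta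

open UpperHalfPlane CongruenceSubgroup PosForm
open scoped MatrixGroups ModularForm Real

variable (f : PosForm) (m : ℕ) [NeZero m]

/-- `τ ↦ θ_φ(τ / m)`. -/
def thetaScaled (φ : ZMod m × ZMod m → ℂ) : ℍ → ℂ := fun τ => thetaC f m φ ((τ : ℂ) / m)

/-- `x ↦ φ(x) e(j f(x) / m)`. -/
def translateWeight (j : ℤ) (φ : ZMod m × ZMod m → ℂ) : ZMod m × ZMod m → ℂ :=
  fun x => φ x * ZMod.stdAddChar ((j : ZMod m) * f.eval x)

/-- The weight obtained from `(1 0; Δ k 1)`: multiply the Fourier transform by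
`e(-k f*(y) / m)`. -/
def lowerWeight (k : ℤ) (φ : ZMod m × ZMod m → ℂ) : ZMod m × ZMod m → ℂ :=
  fun x => ((m : ℂ) ^ 2)⁻¹ * ∑ y : ZMod m × ZMod m,
    fourier2 m φ y * ZMod.stdAddChar (-((k : ZMod m) * f.adj.eval y)) * ZMod.stdAddChar (-dot x y)

theorem sum_stdAddChar_mul (t : ZMod m) :
    ∑ x : ZMod m, ZMod.stdAddChar (x * t) = if t = 0 then (m : ℂ) else 0 := by
  rw [AddChar.sum_mulShift _ (ZMod.isPrimitive_stdAddChar m), ZMod.card]
  split_ifs <;> simp

theorem sum_stdAddChar_dot (y : ZMod m × ZMod m) :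
    ∑ x : ZMod m × ZMod m, ZMod.stdAddChar (dot x y) = if y = 0 then (m : ℂ) ^ 2 else 0 := by
  simp only [dot, AddChar.map_add_eq_mul, Fintype.sum_prod_type, ← Finset.mul_sum,
    ← Finset.sum_mul, sum_stdAddChar_mul]
  by_cases h1 : y.1 = 0 <;> by_cases h2 : y.2 = 0 <;> simp [h1, h2, Prod.ext_iff, sq]

theorem fourier2_lowerWeight (k : ℤ) (φ : ZMod m × ZMod m → ℂ) (y : ZMod m × ZMod m) :
    fourier2 m (lowerWeight f m k φ) y =
      fourier2 m φ y * ZMod.stdAddChar (-((k : ZMod m) * f.adj.eval y)) := by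
  have hm : (m : ℂ) ≠ 0 := by exact_mod_cast NeZero.ne m
  have hdot : ∀ x z : ZMod m × ZMod m,
      ZMod.stdAddChar (-dot x z) * ZMod.stdAddChar (dot x y) = ZMod.stdAddChar (dot x (y - z)) := by
    intro x z
    rw [← AddChar.map_add_eq_mul]
    congr 1
    simp only [dot, Prod.fst_sub, Prod.snd_sub]
    ring
  rw [fourier2]
  simp only [lowerWeight, Finset.mul_sum, Finset.sum_mul]
  rw [Finset.sum_comm]
  simp only [mul_assoc, hdot, ← Finset.mul_sum, sum_stdAddChar_dot, sub_eq_zero, mul_ite, mul_zero,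
    Finset.sum_ite_eq, Finset.mem_univ, if_true]
  field_simp

theorem thetaScaled_slash_T_zpow (φ : ZMod m × ZMod m → ℂ) (j : ℤ) :
    thetaScaled f m φ ∣[(1 : ℤ)] (ModularGroup.T ^ j) =
      thetaScaled f m (translateWeight f m j φ) := by
  ext τ
  rw [ModularForm.SL_slash_apply, thetaScaled, thetaScaled, ModularGroup.coe_T_zpow_smul_eq,
    add_div, thetaC_add_div f m φ j]
  rw [ModularGroup.denom_apply]
  simp [ModularGroup.coe_T_zpow]
  rfl

/-- Elements which are diagonal mod `m`. -/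
theorem thetaScaled_slash_diag (φ : ZMod m × ZMod m → ℂ) {γ : SL(2, ℤ)}
    (hc : ((f.disc * m : ℕ) : ℤ) ∣ γ 1 0) (hb : (m : ℤ) ∣ γ 0 1) :
    thetaScaled f m φ ∣[(1 : ℤ)] γ =
      f.thetaChar ((γ 1 1 : ℤ) : ZMod f.disc) •
        thetaScaled f m (dilate ((γ 1 1 : ℤ) : ZMod m) φ) := by
  obtain ⟨c₁, hc₁⟩ := hc
  obtain ⟨b₁, hb₁⟩ := hb
  push_cast at hc₁
  have hdet := γ.det_coe
  rw [Matrix.det_fin_two] at hdet
  let δ : SL(2, ℤ) := ⟨!![γ 0 0, b₁; (f.disc : ℤ) * m ^ 2 * c₁, γ 1 1], by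
    rw [hb₁, hc₁] at hdet
    rw [Matrix.det_fin_two_of]; linear_combination hdet⟩
  have hδ : δ ∈ Gamma0 (f.disc * m ^ 2) := by
    refine Gamma0_mem.mpr ?_
    show (((f.disc : ℤ) * m ^ 2 * c₁ : ℤ) : ZMod (f.disc * m ^ 2)) = 0
    rw [ZMod.intCast_zmod_eq_zero_iff_dvd]
    push_cast
    exact dvd_mul_right _ _
  have h := thetaH_slash f m φ hδ
  ext τ
  have hm : (m : ℂ) ≠ 0 := by exact_mod_cast NeZero.ne m
  have him : 0 < ((τ : ℂ) / m).im := by
    rw [Complex.div_natCast_im]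
    exact div_pos τ.im_pos (by exact_mod_cast NeZero.pos m)
  have h' := congrFun h ⟨(τ : ℂ) / m, him⟩
  rw [show thetaH f m φ ∣[(1 : ℤ)] (δ : GL (Fin 2) ℝ) = thetaH f m φ ∣[(1 : ℤ)] δ from rfl,
    ModularForm.SL_slash_apply, ModularGroup.denom_apply] at h'
  simp only [thetaH, Pi.smul_apply, UpperHalfPlane.coe_specialLinearGroup_apply] at h'
  simp only [algebraMap_int_eq, eq_intCast, smul_eq_mul] at h'
  rw [ModularForm.SL_slash_apply, ModularGroup.denom_apply, Pi.smul_apply, smul_eq_mul, thetaScaled,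
    thetaScaled,
    UpperHalfPlane.coe_specialLinearGroup_apply]
  simp only [algebraMap_int_eq, eq_intCast]
  simp [δ, hb₁, hc₁] at h' ⊢
  rw [← h']
  congr 2 <;> field_simp

/-- The lower unipotents. -/
theorem thetaScaled_slash_lower (φ : ZMod m × ZMod m → ℂ) (k : ℤ) :
    thetaScaled f m φ ∣[(1 : ℤ)] lowerUnip ((f.disc : ℤ) * k) =
      thetaScaled f m (lowerWeight f m k φ) := by
  ext τ
  set z : ℂ := (τ : ℂ) / m with hz
  set σ : ℂ := -1 / z with hσ
  set w : ℂ := σ - (f.disc : ℂ) * k * m with hw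
  have hm : (m : ℂ) ≠ 0 := by exact_mod_cast NeZero.ne m
  have hΔ : (f.disc : ℂ) ≠ 0 := by exact_mod_cast f.disc_pos.ne'
  have him : 0 < z.im := by
    rw [hz, Complex.div_natCast_im]
    exact div_pos τ.im_pos (by exact_mod_cast NeZero.pos m)
  have hz0 : z ≠ 0 := fun h => by simp [h] at him
  have hσim : 0 < σ.im := im_neg_inv_pos him
  have hσ0 : σ ≠ 0 := fun h => by simp [h] at hσim
  have hwim : 0 < w.im := by
    rw [hw]
    simpa using hσim
  have hw0 : w ≠ 0 := fun h => by simp [h] at hwim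
  have hdual : thetaC f.adj m (fourier2 m φ) (w / (f.disc * m ^ 2)) =
      thetaC f.adj m (fourier2 m (lowerWeight f m k φ)) (σ / (f.disc * m ^ 2)) := by
    rw [show w / (f.disc * m ^ 2) = σ / (f.disc * m ^ 2) + (((-k : ℤ)) : ℂ) / m by
      rw [hw]; push_cast; field_simp; ring, thetaC_add_div]
    congr 1
    funext y
    rw [fourier2_lowerWeight, Int.cast_neg, neg_mul]
  have hden : (f.disc : ℂ) * k * (τ : ℂ) + 1 ≠ 0 := fun h => hw0 (by
    rw [hw, hσ, hz]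
    have := τ.ne_zero
    field_simp
    linear_combination (-(m : ℂ)) * h)
  rw [ModularForm.SL_slash_apply, thetaScaled, thetaScaled,
    UpperHalfPlane.coe_specialLinearGroup_apply]
  simp [UpperHalfPlane.denom, coe_lowerUnip]
  rw [show (τ : ℂ) / ((f.disc : ℂ) * k * τ + 1) / m = -1 / w by
      rw [div_div, div_eq_div_iff (mul_ne_zero hden hm) hw0, hw, hσ, hz]
      have := τ.ne_zero
      field_simp
      ring,
    thetaC_neg_inv f m φ hwim, hdual, ← hz,
    show thetaC f m (lowerWeight f m k φ) z = thetaC f m (lowerWeight f m k φ) (-1 / σ) by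
      rw [hσ]; field_simp,
    thetaC_neg_inv f m _ hσim, hw, hσ, hz]
  have := τ.ne_zero
  have hsq : (Real.sqrt f.disc : ℂ) ≠ 0 := by
    exact_mod_cast (Real.sqrt_pos.mpr (by exact_mod_cast f.disc_pos : (0 : ℝ) < f.disc)).ne'
  rw [mul_inv_eq_iff_eq_mul₀ hden]
  field_simp
  ring

variable {m}

/-- `Γ₀(Δ)` is generated, in this shape, by translations, elements diagonal mod `m` and lower
unipotents when `m` is prime to `Δ`. -/
theorem exists_decomp_Gamma0 (hm : m.Coprime f.disc) {γ : SL(2, ℤ)} (hγ : γ ∈ Gamma0 f.disc) :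
    ∃ (j k n : ℤ) (δ : SL(2, ℤ)), ((f.disc * m : ℕ) : ℤ) ∣ δ 1 0 ∧ (m : ℤ) ∣ δ 0 1 ∧
      γ = ModularGroup.T ^ j * δ * lowerUnip ((f.disc : ℤ) * k) * ModularGroup.T ^ n := by
  have hdet := γ.det_coe
  rw [Matrix.det_fin_two] at hdet
  obtain ⟨n, hn⟩ : ∃ n : ℤ, IsUnit (((γ 1 1 + n * γ 1 0 : ℤ)) : ZMod m) := by
    rcases eq_or_ne (γ 1 0) 0 with hc | hc
    · refine ⟨0, ?_⟩
      rw [hc, mul_zero, sub_zero] at hdet
      have h := congrArg (Int.cast : ℤ → ZMod m) hdet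
      push_cast at h
      simpa using IsUnit.of_mul_eq_one_right _ h
    · set c := (γ 1 0).natAbs with hcdef
      haveI : NeZero c := ⟨by omega⟩
      have h := congrArg (Int.cast : ℤ → ZMod c) hdet
      push_cast at h
      rw [show ((γ 1 0 : ℤ) : ZMod c) = 0 from
        (ZMod.intCast_zmod_eq_zero_iff_dvd _ _).mpr (Int.natAbs_dvd.mpr dvd_rfl),
        mul_zero, sub_zero] at h
      obtain ⟨p, hp, hprime, hpd⟩ :=
        Nat.forall_exists_prime_gt_and_eq_mod (IsUnit.of_mul_eq_one_right _ h) m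
      obtain ⟨n, hn⟩ : γ 1 0 ∣ (p : ℤ) - γ 1 1 := by
        rw [← Int.natAbs_dvd, ← hcdef, ← ZMod.intCast_zmod_eq_zero_iff_dvd]
        push_cast
        rw [hpd, sub_self]
      refine ⟨n, ?_⟩
      rw [show γ 1 1 + n * γ 1 0 = (p : ℤ) by linear_combination -hn, Int.cast_natCast,
        ZMod.isUnit_iff_coprime]
      exact hprime.coprime_iff_not_dvd.mpr
        fun h => absurd (Nat.le_of_dvd (NeZero.pos m) h) (not_le.mpr hp)
  set g := γ * ModularGroup.T ^ n with hg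
  obtain ⟨h11, h10⟩ := mul_T_zpow_lowerRight γ n
  rw [← hg] at h11 h10
  have hu : IsUnit ((g 1 1 : ℤ) : ZMod m) := by rwa [h11]
  have hΔ : IsUnit ((f.disc : ℕ) : ZMod m) := (ZMod.isUnit_iff_coprime _ _).mpr hm.symm
  obtain ⟨k, hk⟩ := ZMod.intCast_surjective
    (-((g 1 0 : ℤ) : ZMod m) * (((hu.mul hΔ).unit⁻¹ : (ZMod m)ˣ) : ZMod m))
  set g₂ := g * lowerUnip ((f.disc : ℤ) * k) with hg₂
  obtain ⟨e10, e11⟩ := mul_lowerUnip g ((f.disc : ℤ) * k)
  rw [← hg₂] at e10 e11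
  have hm10 : ((g₂ 1 0 : ℤ) : ZMod m) = 0 := by
    rw [e10]
    push_cast
    rw [hk, ← mul_assoc ((g 1 1 : ℤ) : ZMod m), mul_comm (-((g 1 0 : ℤ) : ZMod m)), ← mul_assoc,
      IsUnit.mul_val_inv, one_mul, add_neg_cancel]
  have hd10 : ((g₂ 1 0 : ℤ) : ZMod f.disc) = 0 := by
    rw [e10, h10]
    push_cast
    rw [Gamma0_mem.mp hγ, ZMod.natCast_self]
    simp
  obtain ⟨j, hj⟩ := ZMod.intCast_surjective
    (-((g₂ 0 1 : ℤ) : ZMod m) * ((((e11 ▸ hu : IsUnit ((g₂ 1 1 : ℤ) : ZMod m))).unit⁻¹ : (ZMod m)ˣ) : ZMod m))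
  refine ⟨-j, -k, -n, ModularGroup.T ^ j * g₂, ?_, ?_, ?_⟩
  · have h : (ModularGroup.T ^ j * g₂) 1 0 = g₂ 1 0 := by
      simp [Matrix.SpecialLinearGroup.coe_mul, ModularGroup.coe_T_zpow, Matrix.mul_apply,
        Fin.sum_univ_two]
    rw [h]
    push_cast
    exact (Int.isCoprime_iff_nat_coprime.mpr (by simpa using hm.symm)).mul_dvd
      ((ZMod.intCast_zmod_eq_zero_iff_dvd _ _).mp hd10)
      ((ZMod.intCast_zmod_eq_zero_iff_dvd _ _).mp hm10)
  · have h : (ModularGroup.T ^ j * g₂) 0 1 = g₂ 0 1 + j * g₂ 1 1 := by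
      simp [Matrix.SpecialLinearGroup.coe_mul, ModularGroup.coe_T_zpow, Matrix.mul_apply,
        Fin.sum_univ_two]
    rw [h, ← ZMod.intCast_zmod_eq_zero_iff_dvd]
    push_cast
    rw [hj, mul_assoc, IsUnit.val_inv_mul, mul_one, add_neg_cancel]
  · have hL : lowerUnip ((f.disc : ℤ) * k) * lowerUnip ((f.disc : ℤ) * -k) = 1 := by
      ext i j
      fin_cases i <;> fin_cases j <;> simp [coe_lowerUnip, Matrix.mul_apply, Fin.sum_univ_two]
    rw [← mul_assoc (ModularGroup.T ^ (-j)), ← zpow_add, neg_add_cancel, zpow_zero, one_mul, hg₂,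
      mul_assoc g, hL, mul_one, hg, mul_assoc, ← zpow_add, add_neg_cancel, zpow_zero, mul_one]

/-- `Γ₀(Δ)` permutes the scaled theta series linearly. -/
theorem exists_weight_slash (hm : m.Coprime f.disc) (φ : ZMod m × ZMod m → ℂ) {γ : SL(2, ℤ)}
    (hγ : γ ∈ Gamma0 f.disc) :
    ∃ ψ : ZMod m × ZMod m → ℂ, ∃ c : ℂ,
      thetaScaled f m φ ∣[(1 : ℤ)] γ = c • thetaScaled f m ψ := by
  obtain ⟨j, k, n, δ, hc, hb, rfl⟩ := exists_decomp_Gamma0 f hm hγ
  refine ⟨translateWeight f m n (lowerWeight f m k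
    (dilate ((δ 1 1 : ℤ) : ZMod m) (translateWeight f m j φ))),
    f.thetaChar ((δ 1 1 : ℤ) : ZMod f.disc), ?_⟩
  simp only [SlashAction.slash_mul, thetaScaled_slash_T_zpow, thetaScaled_slash_diag f m _ hc hb,
    ModularForm.SL_smul_slash, thetaScaled_slash_lower]

variable (m) in
/-- A periodic theta series near a rational point. -/
theorem exists_bound_near_rat (φ : ZMod m × ZMod m → ℂ) (a : ℤ) (n : ℕ) [NeZero n] {y₀ : ℝ}
    (hy : 0 < y₀) :
    ∃ B : ℝ, ∀ w : ℂ, y₀ ≤ w.im → ‖thetaC f m φ (-1 / w + (a : ℂ) / n)‖ ≤ B * ‖w‖ := by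
  have hΔ : (0 : ℝ) < f.disc := by exact_mod_cast f.disc_pos
  have hmn : (0 : ℝ) < ((m * n : ℕ) : ℝ) := by exact_mod_cast NeZero.pos (m * n)
  obtain ⟨B, hB⟩ := exists_bound_thetaC f.adj (m * n) (fourier2 (m * n) (twistWeight f a φ))
    (y₀ := y₀ / (f.disc * ((m * n : ℕ) : ℝ) ^ 2)) (by positivity)
  refine ⟨B / (Real.sqrt f.disc * ((m * n : ℕ) : ℝ) ^ 2), fun w hw => ?_⟩
  have hw0 : 0 < w.im := hy.trans_le hw
  have hn : (n : ℂ) ≠ 0 := by exact_mod_cast NeZero.ne n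
  have hshift : thetaC f m φ (-1 / w + (a : ℂ) / n) =
      thetaC f (m * n) (twistWeight f a φ) (-1 / w) := by
    refine tsum_congr fun x => ?_
    rw [twistWeight, vecRed_vecCast, vecRed_vecCast, mul_assoc (φ _)]
    congr 1
    rw [show (a : ZMod n) * f.eval (vecCast n x) = ((a * f.eval x : ℤ) : ZMod n) by
      push_cast; rw [f.eval_intCast x]; rfl, ZMod.stdAddChar_coe, ← Complex.exp_add]
    push_cast
    congr 1
    field_simp
    ring
  have hbound := hB (w / (f.disc * ((m * n : ℕ) : ℂ) ^ 2)) (by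
    rw [show (f.disc : ℂ) * ((m * n : ℕ) : ℂ) ^ 2 = ((f.disc * ((m * n : ℕ) : ℝ) ^ 2 : ℝ) : ℂ) by
      push_cast; rfl, Complex.div_ofReal_im]
    gcongr)
  rw [hshift, thetaC_inversion f (m * n) _ hw0, norm_mul]
  refine (mul_le_mul_of_nonneg_left hbound (norm_nonneg _)).trans (le_of_eq ?_)
  simp only [norm_div, norm_mul, norm_neg, Complex.norm_I, one_mul, norm_pow, Complex.norm_natCast,
    Complex.norm_real, Real.norm_eq_abs, abs_of_nonneg (Real.sqrt_nonneg _)]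
  ring

variable (m) in
theorem isBoundedAtImInfty_thetaScaled_slash (φ : ZMod m × ZMod m → ℂ) (γ : SL(2, ℤ)) :
    IsBoundedAtImInfty (thetaScaled f m φ ∣[(1 : ℤ)] γ) := by
  have hm : (0 : ℝ) < m := by exact_mod_cast NeZero.pos m
  rcases eq_or_ne (γ 1 0) 0 with hc | hc
  · have hdet := γ.det_coe
    rw [Matrix.det_fin_two, hc, mul_zero, sub_zero] at hdet
    obtain ⟨B, hB⟩ := exists_bound_thetaC f m φ (y₀ := 1 / m) (by positivity)
    rw [UpperHalfPlane.isBoundedAtImInfty_iff]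
    refine ⟨B, 1, fun τ hτ => ?_⟩
    rw [ModularForm.SL_slash_apply, ModularGroup.denom_apply, thetaScaled,
      UpperHalfPlane.coe_specialLinearGroup_apply]
    simp only [algebraMap_int_eq, eq_intCast]
    rcases Int.eq_one_or_neg_one_of_mul_eq_one' hdet with ⟨h0, h1⟩ | ⟨h0, h1⟩ <;>
      (simp [hc, h0, h1]
       refine hB _ ?_
       simp [Complex.div_natCast_im]
       rw [inv_eq_one_div]
       gcongr
       all_goals simpa [div_neg] using hτ)
  · obtain ⟨n, hn0, hn⟩ : ∃ n : ℕ, 0 < n ∧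
        (((γ 1 0 = (n : ℤ))) ∨ (γ 1 0 = -(n : ℤ))) := ⟨(γ 1 0).natAbs, by omega, by omega⟩
    obtain ⟨s, hs, hsn⟩ : ∃ s : ℤ, (s = 1 ∨ s = -1) ∧ s * γ 1 0 = n := by
      rcases hn with h | h
      · exact ⟨1, Or.inl rfl, by rw [h, one_mul]⟩
      · exact ⟨-1, Or.inr rfl, by rw [h]; ring⟩
    haveI : NeZero n := ⟨hn0.ne'⟩
    obtain ⟨B, hB⟩ := exists_bound_near_rat f m φ (s * γ 0 0) (n * m) (y₀ := 1) one_pos
    rw [UpperHalfPlane.isBoundedAtImInfty_iff]
    refine ⟨B * (n * m), 1, fun τ hτ => ?_⟩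
    set w : ℂ := (n : ℂ) * m * ((n : ℂ) * τ + ((s * γ 1 1 : ℤ) : ℂ)) with hw
    have hwim : w.im = (n : ℝ) * m * (n * τ.im) := by rw [hw]; simp [Complex.mul_im]
    have h1n : (1 : ℝ) ≤ n := by exact_mod_cast hn0
    have hge : 1 ≤ w.im := by
      rw [hwim]
      have h1m : (1 : ℝ) ≤ m := by exact_mod_cast NeZero.pos m
      exact one_le_mul_of_one_le_of_one_le (one_le_mul_of_one_le_of_one_le h1n h1m)
        (one_le_mul_of_one_le_of_one_le h1n hτ)
    have hw0 : w ≠ 0 := fun h => by simp [h] at hge; linarith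
    have hden : (n : ℂ) * τ + ((s * γ 1 1 : ℤ) : ℂ) ≠ 0 := fun h => hw0 (by rw [hw, h, mul_zero])
    have hs2 : (s : ℂ) * s = 1 := by rcases hs with rfl | rfl <;> norm_num
    have hsnC : (s : ℂ) * (γ 1 0 : ℤ) = n := by exact_mod_cast hsn
    have hsplit : ((γ 1 0 : ℤ) : ℂ) * τ + ((γ 1 1 : ℤ) : ℂ) =
        s * ((n : ℂ) * τ + ((s * γ 1 1 : ℤ) : ℂ)) := by
      rw [← hsnC]
      push_cast
      linear_combination (-(((γ 1 0 : ℤ) : ℂ) * τ + ((γ 1 1 : ℤ) : ℂ))) * hs2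
    have hmC : (m : ℂ) ≠ 0 := by exact_mod_cast NeZero.ne m
    have hnC : (n : ℂ) ≠ 0 := by exact_mod_cast hn0.ne'
    have hs0 : (s : ℂ) ≠ 0 := fun h => by simp [h] at hs2
    have hdet := γ.det_coe
    rw [Matrix.det_fin_two] at hdet
    have hdetC : ((γ 0 0 : ℤ) : ℂ) * (γ 1 1 : ℤ) - (γ 0 1 : ℤ) * (γ 1 0 : ℤ) = 1 := by
      exact_mod_cast hdet
    rw [ModularForm.SL_slash_apply, ModularGroup.denom_apply, thetaScaled,
      UpperHalfPlane.coe_specialLinearGroup_apply]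
    simp only [algebraMap_int_eq, eq_intCast, Complex.ofReal_intCast]
    rw [hsplit, show (((γ 0 0 : ℤ) : ℂ) * τ + (γ 0 1 : ℤ)) /
        (s * ((n : ℂ) * τ + ((s * γ 1 1 : ℤ) : ℂ))) / m =
      -1 / w + ((s * γ 0 0 : ℤ) : ℂ) / ((n * m : ℕ) : ℂ) by
        push_cast at hden ⊢
        rw [div_div, div_add_div _ _ hw0 (mul_ne_zero hnC hmC),
          div_eq_div_iff (mul_ne_zero (mul_ne_zero hs0 hden) hmC)
            (mul_ne_zero hw0 (mul_ne_zero hnC hmC)), hw]
        push_cast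
        linear_combination ((n : ℂ) * m ^ 2 * ((n : ℂ) * τ + s * (γ 1 1 : ℤ))) *
            (-(((γ 0 0 : ℤ) : ℂ) * τ * n + ((γ 0 0 : ℤ) : ℂ) * s * (γ 1 1 : ℤ))) * hs2 +
          ((n : ℂ) * m ^ 2 * ((n : ℂ) * τ + s * (γ 1 1 : ℤ))) * (-(s : ℂ)) * hdetC +
          ((n : ℂ) * m ^ 2 * ((n : ℂ) * τ + s * (γ 1 1 : ℤ))) * (-((γ 0 1 : ℤ) : ℂ)) * hsnC,
      zpow_neg_one, norm_mul, norm_inv, norm_mul,
      show ‖(s : ℂ)‖ = 1 by rcases hs with rfl | rfl <;> simp, one_mul]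
    refine (mul_le_mul_of_nonneg_right (hB w hge) (by positivity)).trans (le_of_eq ?_)
    have := norm_ne_zero_iff.mpr hden
    rw [hw, norm_mul, norm_mul, Complex.norm_natCast, Complex.norm_natCast]
    field_simp

variable (m) in
theorem differentiableAt_thetaScaled (φ : ZMod m × ZMod m → ℂ) :
    ∀ τ : ℍ, DifferentiableAt ℂ (fun z : ℂ => thetaC f m φ (z / m)) (τ : ℂ) := fun τ => by
  have him : 0 < ((τ : ℂ) / m).im := by
    rw [Complex.div_natCast_im]
    exact div_pos τ.im_pos (by exact_mod_cast NeZero.pos m)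
  exact ((differentiableOn_thetaC f m φ).differentiableAt
    ((isOpen_lt continuous_const Complex.continuous_im).mem_nhds him)).comp (τ : ℂ)
      (differentiableAt_id.div_const (m : ℂ))

/-- The character depends only on the discriminant. -/
theorem thetaChar_eq_of_disc_eq {f g : PosForm} (h : f.disc = g.disc) (t : ℤ) :
    f.thetaChar (t : ZMod f.disc) = g.thetaChar (t : ZMod g.disc) := by
  by_cases hu : IsUnit (t : ZMod f.disc)
  · obtain ⟨p, hp, hp2, hpd, hpu⟩ := exists_good_prime f hu.unit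
    haveI : Fact p.Prime := ⟨hp⟩
    rw [hu.unit_spec] at hpu
    have hg : (p : ZMod g.disc) = (t : ZMod g.disc) := by rw [← h]; exact hpu
    rw [← hpu, thetaChar_apply_prime f hp2 hpd, ← hg,
      thetaChar_apply_prime g hp2 (h ▸ hpd), h]
  · rw [MulChar.map_nonunit _ hu, MulChar.map_nonunit _ (h ▸ hu)]

end Fermat.Agent.TwoAdic.Theta
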