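import Fermat.Agent.TwoAdic.Theta.PlaneCoord
import Fermat.Agent.TwoAdic.Theta.Weil
import Fermat.Agent.TwoAdic.Weil.TypeSpace

/-!
# Theta series of type the Weil representation

In coordinates adapted to `f` the scaled theta series intertwine the Weil operators of `Γ₀(Δ)` mod
`m` with the weight one action, up to the character `(-Δ/·)`. The product with the theta series of
a form of the same discriminant is a weight two form of type `rep d μ` without character.

Owner: helper74 (LT2, P3).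
-/

set_option autoImplicit false
set_option linter.unusedSectionVars false
set_option linter.style.haveILetI false

noncomputable section

namespace Fermat.Agent.TwoAdic.Theta

open UpperHalfPlane hiding I
open PosForm CongruenceSubgroup
open scoped MatrixGroups ModularForm Manifold

variable {m : ℕ} [NeZero m]

/-- Reduction mod `m` of an element of `SL₂(ℤ)`, as a matrix. -/
def slRedMat (m : ℕ) (γ : SL(2, ℤ)) : Matrix (Fin 2) (Fin 2) (ZMod m) :=
  ((γ : SL(2, ℤ)) : Matrix (Fin 2) (Fin 2) ℤ).map (Int.castRingHom (ZMod m))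

theorem det_slRedMat (γ : SL(2, ℤ)) : (slRedMat m γ).det = 1 := by
  rw [slRedMat, ← RingHom.mapMatrix_apply, ← RingHom.map_det, γ.det_coe, map_one]

theorem slRedMat_mul (γ δ : SL(2, ℤ)) : slRedMat m (γ * δ) = slRedMat m γ * slRedMat m δ := by
  rw [slRedMat, slRedMat, slRedMat, Matrix.SpecialLinearGroup.coe_mul, Matrix.map_mul]

theorem slRedMat_one : slRedMat m 1 = 1 := by
  rw [slRedMat, Matrix.SpecialLinearGroup.coe_one, Matrix.map_one _ (map_zero _) (map_one _)]

theorem coe_redSL (γ : SL(2, ℤ)) :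
    (Weil.redSL m γ : Matrix (Fin 2) (Fin 2) (ZMod m)) = slRedMat m γ :=
  Cohom.coe_red (Weil.isUnit_det_sl m γ)

theorem slRedMat_apply (γ : SL(2, ℤ)) (i j : Fin 2) :
    slRedMat m γ i j = ((γ i j : ℤ) : ZMod m) := rfl

section Linear

variable (f : PosForm)

theorem thetaScaled_add (φ φ' : ZMod m × ZMod m → ℂ) :
    thetaScaled f m (φ + φ') = thetaScaled f m φ + thetaScaled f m φ' := by
  funext τ
  have him : 0 < ((τ : ℂ) / m).im := by
    rw [Complex.div_natCast_im]
    exact div_pos τ.im_pos (by exact_mod_cast NeZero.pos m)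
  simp only [thetaScaled, Pi.add_apply, thetaC_eq_tsum]
  rw [← (summable_thetaTerm f m φ him).tsum_add (summable_thetaTerm f m φ' him)]
  exact tsum_congr fun x => by simp [thetaTerm, add_mul]

theorem thetaScaled_smul (c : ℂ) (φ : ZMod m × ZMod m → ℂ) :
    thetaScaled f m (c • φ) = c • thetaScaled f m φ := by
  funext τ
  simp only [thetaScaled, Pi.smul_apply, smul_eq_mul, thetaC_eq_tsum, ← tsum_mul_left]
  exact tsum_congr fun x => by simp [thetaTerm, mul_assoc]

theorem mdiff_thetaScaled (φ : ZMod m × ZMod m → ℂ) : MDiff (thetaScaled f m φ) := by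
  intro τ
  rw [UpperHalfPlane.mdifferentiableAt_iff]
  refine (differentiableAt_thetaScaled f m φ τ).congr_of_eventuallyEq ?_
  filter_upwards [(isOpen_lt continuous_const Complex.continuous_im).mem_nhds τ.im_pos] with z hz
  simp [thetaScaled, UpperHalfPlane.ofComplex_apply_of_im_pos hz]

theorem thetaScaled_one_eq_thetaOne : thetaScaled f 1 (fun _ => 1) = thetaOne f := by
  funext τ
  simp [thetaScaled, thetaOne, thetaH]

/-- The character of a binary theta series takes the values `±1` at units. -/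
theorem thetaChar_mul_self {t : ℤ} (hu : IsUnit (t : ZMod f.disc)) :
    f.thetaChar (t : ZMod f.disc) * f.thetaChar (t : ZMod f.disc) = 1 := by
  obtain ⟨p, hp, hp2, hpd, hpu⟩ := exists_good_prime f hu.unit
  haveI : Fact p.Prime := ⟨hp⟩
  rw [hu.unit_spec] at hpu
  rw [← hpu, thetaChar_apply_prime f hp2 hpd]
  have h : (((-(f.disc : ℤ)) : ℤ) : ZMod p) ≠ 0 := by
    rw [Int.cast_neg, neg_ne_zero, Int.cast_natCast, Ne, ZMod.natCast_eq_zero_iff]
    exact hpd
  rcases legendreSym.eq_one_or_neg_one p h with e | e <;> rw [e] <;> norm_num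

theorem isUnit_lowerRight {γ : SL(2, ℤ)} (hγ : γ ∈ Gamma0 f.disc) :
    IsUnit ((γ 1 1 : ℤ) : ZMod f.disc) := by
  have hdet := congrArg (Int.cast : ℤ → ZMod f.disc) γ.det_coe
  rw [Matrix.det_fin_two] at hdet
  push_cast at hdet
  rw [Gamma0_mem.mp hγ, mul_zero, sub_zero] at hdet
  exact IsUnit.of_mul_eq_one_right _ hdet

theorem thetaChar_mul_lowerRight {γ δ : SL(2, ℤ)} (hγ : γ ∈ Gamma0 f.disc) :
    f.thetaChar (((γ * δ) 1 1 : ℤ) : ZMod f.disc) =
      f.thetaChar ((γ 1 1 : ℤ) : ZMod f.disc) * f.thetaChar ((δ 1 1 : ℤ) : ZMod f.disc) := by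
  rw [← map_mul, Matrix.SpecialLinearGroup.coe_mul, Matrix.mul_apply, Fin.sum_univ_two]
  push_cast
  rw [Gamma0_mem.mp hγ, zero_mul, zero_add]

end Linear

variable {ι : Type*} [Fintype ι] {F E : ι → Type*}
  [∀ i, Field (F i)] [∀ i, Field (E i)] [∀ i, Fintype (F i)] [∀ i, Fintype (E i)]
  [∀ i, Algebra (F i) (E i)] [∀ i, Weil.IsPlane (F i) (E i)]
  {f : PosForm} {d : Weil.Data (ZMod m) F ℂ} (P : PlaneCoord f d E)

namespace PlaneCoord

/-- The scaled theta series of a function on the planes. -/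
def theta : (((i : ι) → E i) → ℂ) →ₗ[ℂ] (ℍ → ℂ) where
  toFun φ := thetaScaled f m (P.pull φ)
  map_add' φ φ' := by rw [map_add, thetaScaled_add]
  map_smul' c φ := by rw [map_smul, thetaScaled_smul, RingHom.id_apply]

theorem theta_apply (φ : ((i : ι) → E i) → ℂ) : P.theta φ = thetaScaled f m (P.pull φ) := rfl

theorem pull_weilOp_slRedMat_lower (hdisc : IsUnit (f.disc : ZMod m)) (k : ℤ)
    (φ : ((i : ι) → E i) → ℂ) :
    P.pull (Weil.weilOp d (slRedMat m (lowerUnip ((f.disc : ℤ) * k))) φ) =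
      lowerWeight f m (-k) (P.pull φ) := by
  funext x
  have hmat : slRedMat m (lowerUnip ((f.disc : ℤ) * k)) =
      !![1, 0; -((f.disc : ZMod m) * (-k : ℤ)), 1] := by
    ext i j
    fin_cases i <;> fin_cases j <;> simp [slRedMat_apply, coe_lowerUnip]
  rw [hmat, P.pull_weilOp_lower hdisc, lowerWeight, fourier2]
  congr 1
  refine Finset.sum_congr rfl fun y _ => ?_
  rw [show dot y (-x) = -dot x y by simp only [dot, Prod.fst_neg, Prod.snd_neg]; ring]

/-- The intertwining relation for one element. -/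
def Intertwines (γ : SL(2, ℤ)) : Prop :=
  γ ∈ Gamma0 f.disc ∧ ∀ φ : ((i : ι) → E i) → ℂ,
    P.theta (Weil.weilOp d (slRedMat m γ) φ) ∣[(1 : ℤ)] γ =
      f.thetaChar ((γ 1 1 : ℤ) : ZMod f.disc) • P.theta φ

theorem Intertwines.mul {γ δ : SL(2, ℤ)} (hγ : P.Intertwines γ) (hδ : P.Intertwines δ) :
    P.Intertwines (γ * δ) := by
  refine ⟨mul_mem hγ.1 hδ.1, fun φ => ?_⟩
  rw [slRedMat_mul, Weil.weilOp_mul d _ _ (det_slRedMat γ) (det_slRedMat δ), Module.End.mul_apply,
    SlashAction.slash_mul, hγ.2, ModularForm.SL_smul_slash, hδ.2, smul_smul,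
    thetaChar_mul_lowerRight f hγ.1]

theorem intertwines_T_zpow (j : ℤ) : P.Intertwines (ModularGroup.T ^ j) := by
  refine ⟨T_zpow_mem_Gamma0 _ j, fun φ => ?_⟩
  rw [theta_apply, thetaScaled_slash_T_zpow, theta_apply]
  rw [show f.thetaChar (((ModularGroup.T ^ j : SL(2, ℤ)) 1 1 : ℤ) : ZMod f.disc) = 1 by
    simp [ModularGroup.coe_T_zpow], one_smul]
  congr 1
  funext x
  have hmat : slRedMat m (ModularGroup.T ^ j) = !![1, (j : ZMod m); 0, 1] := by
    ext a b
    fin_cases a <;> fin_cases b <;> simp [slRedMat_apply, ModularGroup.coe_T_zpow]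
  rw [translateWeight, hmat, P.pull_weilOp_upper, one_smul, one_mul, mul_right_comm,
    ← AddChar.map_add_eq_mul, neg_add_cancel, AddChar.map_zero_eq_one, one_mul]

theorem intertwines_diag {δ : SL(2, ℤ)} (hc : ((f.disc * m : ℕ) : ℤ) ∣ δ 1 0)
    (hb : (m : ℤ) ∣ δ 0 1) : P.Intertwines δ := by
  have hmem : δ ∈ Gamma0 f.disc := Gamma0_mem.mpr
    ((ZMod.intCast_zmod_eq_zero_iff_dvd _ _).mpr
      ((Int.natCast_dvd_natCast.mpr (dvd_mul_right _ _)).trans hc))
  refine ⟨hmem, fun φ => ?_⟩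
  have h10 : ((δ 1 0 : ℤ) : ZMod m) = 0 := (ZMod.intCast_zmod_eq_zero_iff_dvd _ _).mpr
    ((Int.natCast_dvd_natCast.mpr (dvd_mul_left _ _)).trans hc)
  have h01 : ((δ 0 1 : ℤ) : ZMod m) = 0 := (ZMod.intCast_zmod_eq_zero_iff_dvd _ _).mpr hb
  rw [theta_apply, thetaScaled_slash_diag f m _ hc hb, theta_apply]
  congr 2
  funext x
  have hmat : slRedMat m δ = !![((δ 0 0 : ℤ) : ZMod m), 0; 0, ((δ 1 1 : ℤ) : ZMod m)] := by
    ext a b
    fin_cases a <;> fin_cases b <;> simp [slRedMat_apply, h10, h01]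
  have hdet := det_slRedMat (m := m) δ
  rw [hmat, Matrix.det_fin_two_of, mul_zero, sub_zero] at hdet
  rw [dilate, hmat, P.pull_weilOp_upper, smul_smul, hdet, one_smul, mul_zero, zero_mul, neg_zero,
    AddChar.map_zero_eq_one, one_mul]

theorem intertwines_lower (hdisc : IsUnit (f.disc : ZMod m)) (k : ℤ) :
    P.Intertwines (lowerUnip ((f.disc : ℤ) * k)) := by
  refine ⟨lowerUnip_mem_Gamma0 (dvd_mul_right _ _), fun φ => ?_⟩
  rw [theta_apply, thetaScaled_slash_lower, theta_apply,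
    show f.thetaChar (((lowerUnip ((f.disc : ℤ) * k)) 1 1 : ℤ) : ZMod f.disc) = 1 by
      simp [coe_lowerUnip], one_smul]
  congr 1
  have hinv : lowerUnip ((f.disc : ℤ) * -k) * lowerUnip ((f.disc : ℤ) * k) = 1 := by
    ext i j
    fin_cases i <;> fin_cases j <;> simp [coe_lowerUnip, Matrix.mul_apply, Fin.sum_univ_two]
  have h := P.pull_weilOp_slRedMat_lower hdisc (-k)
    (Weil.weilOp d (slRedMat m (lowerUnip ((f.disc : ℤ) * k))) φ)
  rw [← Module.End.mul_apply, ← Weil.weilOp_mul d _ _ (det_slRedMat _) (det_slRedMat _), ← slRedMat_mul,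
    hinv, slRedMat_one, Weil.weilOp_one, Module.End.one_apply, neg_neg] at h
  exact h.symm

/-- The scaled theta series intertwine `Γ₀(Δ)` with the Weil operators. -/
theorem theta_weilOp_slash (hm : m.Coprime f.disc) {γ : SL(2, ℤ)} (hγ : γ ∈ Gamma0 f.disc)
    (φ : ((i : ι) → E i) → ℂ) :
    P.theta (Weil.weilOp d (slRedMat m γ) φ) ∣[(1 : ℤ)] γ =
      f.thetaChar ((γ 1 1 : ℤ) : ZMod f.disc) • P.theta φ := by
  have hdisc : IsUnit (f.disc : ZMod m) := (ZMod.isUnit_iff_coprime _ _).mpr hm.symm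
  suffices h : P.Intertwines γ from h.2 φ
  obtain ⟨j, k, n, δ, hc, hb, rfl⟩ := exists_decomp_Gamma0 f hm hγ
  exact (((P.intertwines_T_zpow j).mul P (P.intertwines_diag hc hb)).mul P
    (P.intertwines_lower hdisc k)).mul P (P.intertwines_T_zpow n)

/-- The transformation law of a scaled theta series on `Γ₀(Δ)`. -/
theorem theta_slash (hm : m.Coprime f.disc) {γ : SL(2, ℤ)} (hγ : γ ∈ Gamma0 f.disc)
    (φ : ((i : ι) → E i) → ℂ) :
    P.theta φ ∣[(1 : ℤ)] γ = f.thetaChar ((γ 1 1 : ℤ) : ZMod f.disc) •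
      P.theta (Weil.weilOp d (slRedMat m γ⁻¹) φ) := by
  rw [← P.theta_weilOp_slash hm hγ (Weil.weilOp d (slRedMat m γ⁻¹) φ), ← Module.End.mul_apply,
    ← Weil.weilOp_mul d _ _ (det_slRedMat _) (det_slRedMat _), ← slRedMat_mul, mul_inv_cancel,
    slRedMat_one, Weil.weilOp_one, Module.End.one_apply]

theorem isBoundedAtImInfty_theta_slash (φ : ((i : ι) → E i) → ℂ) (γ : SL(2, ℤ)) :
    IsBoundedAtImInfty (P.theta φ ∣[(1 : ℤ)] γ) :=
  isBoundedAtImInfty_thetaScaled_slash f m _ γ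

variable {μ : (i : ι) → (E i)ˣ →* ℂˣ}

variable (μ) in
/-- The weight two product of a scaled theta series and the theta series of `f₀`. -/
def thetaProd (f₀ : PosForm) : Weil.cusp (F := F) μ →ₗ[ℂ] (ℍ → ℂ) :=
  (LinearMap.mulRight ℂ (thetaOne f₀)).comp (P.theta.comp (Weil.cusp (F := F) μ).subtype)

theorem thetaProd_apply (f₀ : PosForm) (w : Weil.cusp (F := F) μ) :
    P.thetaProd μ f₀ w = P.theta (w : ((i : ι) → E i) → ℂ) * thetaOne f₀ := rfl

theorem thetaOne_bounded_slash (f₀ : PosForm) (γ : SL(2, ℤ)) :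
    IsBoundedAtImInfty (thetaOne f₀ ∣[(1 : ℤ)] γ) :=
  isBoundedAtImInfty_thetaH_slash f₀ 1 _ γ

/-- The product is a weight two form of type `rep d μ` without character. -/
theorem thetaProd_mem (hm : m.Coprime f.disc) {f₀ : PosForm} (h₀ : f₀.disc = f.disc) {M : ℕ}
    (hM : f.disc ∣ M) :
    P.thetaProd μ f₀ ∈ Weil.typeSpace m M (Weil.rep d μ) := by
  refine ⟨fun w => ?_, fun w c hc => ?_, fun γ hγ w => ?_⟩
  · rw [thetaProd_apply, theta_apply, ← thetaScaled_one_eq_thetaOne]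
    exact (mdiff_thetaScaled f _).mul (mdiff_thetaScaled f₀ _)
  · rw [OnePoint.isBoundedAt_iff_forall_SL2Z hc]
    intro δ _
    rw [thetaProd_apply, show (2 : ℤ) = 1 + 1 from rfl, ModularForm.mul_slash_SL2]
    exact (P.isBoundedAtImInfty_theta_slash _ δ).mul (thetaOne_bounded_slash f₀ δ)
  · have hγd : γ ∈ Gamma0 f.disc := Gamma0_mem.mpr ((ZMod.intCast_zmod_eq_zero_iff_dvd _ _).mpr
      ((Int.natCast_dvd_natCast.mpr hM).trans
        ((ZMod.intCast_zmod_eq_zero_iff_dvd _ _).mp (Gamma0_mem.mp hγ))))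
    rw [thetaProd_apply, thetaProd_apply, show (2 : ℤ) = 1 + 1 from rfl, ModularForm.mul_slash_SL2,
      Weil.rep_of_det_eq_one d _ (by rw [coe_redSL, det_slRedMat]), coe_redSL,
      P.theta_weilOp_slash hm hγd, thetaOne_slash_thetaChar f₀ (by rwa [h₀]),
      ← thetaChar_eq_of_disc_eq h₀.symm, smul_mul_smul_comm,
      thetaChar_mul_self f (isUnit_lowerRight f hγd), one_smul]

end PlaneCoord

section OfNorm

variable (fa : PosForm) (d : Weil.Data (ZMod m) F ℂ) (e : (ZMod m × ZMod m) →+ ((i : ι) → E i))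
  (he : Function.Bijective e)
  (hN : ∀ v i, Algebra.norm (F i) (e v i) = d.proj i (fa.eval v))
  (hψ : ∀ a, ∏ i, d.char i (d.proj i a) = ZMod.stdAddChar (-a))

include hN hψ in
theorem char_norm_of_hom (t : ZMod m) (x : ZMod m × ZMod m) :
    ∏ i, d.char i (d.proj i t * Algebra.norm (F i) (e x i)) =
      ZMod.stdAddChar (-(t * fa.eval x)) := by
  rw [← hψ]
  exact Finset.prod_congr rfl fun i _ => by rw [hN x i, map_mul (d.proj i)]

/-- Coordinates from a bijection turning the form into the norms. -/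
def PlaneCoord.ofNorm : PlaneCoord fa d E where
  equiv := AddEquiv.ofBijective e he
  char_norm := char_norm_of_hom fa d e hN hψ

theorem PlaneCoord.pull_ofNorm (φ : ((i : ι) → E i) → ℂ) :
    (PlaneCoord.ofNorm fa d e he hN hψ).pull φ = fun v => φ (e v) := rfl

include he hN hψ in
/-- `theta_weilOp_slash` for a bijection turning the form into the norms. -/
theorem thetaScaled_weilOp_slash (hm : m.Coprime fa.disc) {γ : SL(2, ℤ)}
    (hγ : γ ∈ Gamma0 fa.disc) (φ : ((i : ι) → E i) → ℂ) :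
    thetaScaled fa m (fun v => Weil.weilOp d
        (Weil.redSL m γ : Matrix (Fin 2) (Fin 2) (ZMod m)) φ (e v)) ∣[(1 : ℤ)] γ =
      fa.thetaChar ((γ 1 1 : ℤ) : ZMod fa.disc) • thetaScaled fa m (fun v => φ (e v)) := by
  rw [coe_redSL]
  exact (PlaneCoord.ofNorm fa d e he hN hψ).theta_weilOp_slash hm hγ φ

end OfNorm

end Fermat.Agent.TwoAdic.Theta
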