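import Fermat.Agent.TwoAdic.Theta.Defs

/-!
# The finite Fourier transform of a twisted weight

For coprime `m`, `d` the Fourier transform mod `m d` of `φ(x) e_d(b f(x))` factors as the Fourier
transform of `φ` times the Gauss sum mod `d`.

Owner: helper76 (LT2, P3a).
-/

set_option autoImplicit false

noncomputable section

namespace Fermat.Agent.TwoAdic.Theta

open PosForm

variable (f : PosForm) {m d : ℕ}

/-- Componentwise reduction from `ℤ/N` to `ℤ/n`. -/
def vecRed {N n : ℕ} (h : n ∣ N) (x : ZMod N × ZMod N) : ZMod n × ZMod n :=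
  (ZMod.castHom h (ZMod n) x.1, ZMod.castHom h (ZMod n) x.2)

theorem vecRed_vecCast {N n : ℕ} (h : n ∣ N) (x : ℤ × ℤ) :
    vecRed h (vecCast N x) = vecCast n x := by simp [vecRed, vecCast]

theorem dot_vecRed {N n : ℕ} (h : n ∣ N) (x y : ZMod N × ZMod N) :
    ZMod.castHom h (ZMod n) (dot x y) = dot (vecRed h x) (vecRed h y) := by
  simp only [dot, vecRed, map_add, map_mul]

theorem dot_smul_right {R : Type*} [CommRing R] (r : R) (x y : R × R) :
    dot x (r • y) = r * dot x y := by simp [dot, mul_add, mul_left_comm]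

theorem stdAddChar_split [NeZero m] [NeZero d] {u v : ℤ} (huv : u * m + v * d = 1)
    (t : ZMod (m * d)) :
    ZMod.stdAddChar t =
      ZMod.stdAddChar ((v : ZMod m) * ZMod.castHom (dvd_mul_right m d) (ZMod m) t) *
        ZMod.stdAddChar ((u : ZMod d) * ZMod.castHom (dvd_mul_left d m) (ZMod d) t) := by
  obtain ⟨j, rfl⟩ := ZMod.intCast_surjective t
  simp only [map_intCast, ← Int.cast_mul, ZMod.stdAddChar_coe, ← Complex.exp_add]
  congr 1
  have h : (u : ℂ) * m + v * d = 1 := by exact_mod_cast huv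
  have hm : (m : ℂ) ≠ 0 := by exact_mod_cast NeZero.ne m
  have hd : (d : ℂ) ≠ 0 := by exact_mod_cast NeZero.ne d
  push_cast
  field_simp
  linear_combination (-(j : ℂ)) * h

/-- Splitting a vector mod `m d` into its components. -/
def crtVec (h : m.Coprime d) :
    ZMod (m * d) × ZMod (m * d) ≃ (ZMod m × ZMod m) × (ZMod d × ZMod d) :=
  ((ZMod.chineseRemainder h).toEquiv.prodCongr (ZMod.chineseRemainder h).toEquiv).trans
    (Equiv.prodProdProdComm _ _ _ _)

theorem chineseRemainder_eq (h : m.Coprime d) (t : ZMod (m * d)) :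
    ZMod.chineseRemainder h t = (ZMod.castHom (dvd_mul_right m d) (ZMod m) t,
      ZMod.castHom (dvd_mul_left d m) (ZMod d) t) :=
  congrArg (fun g : ZMod (m * d) →+* ZMod m × ZMod d => g t)
    (RingHom.ext_zmod (ZMod.chineseRemainder h).toRingHom
      ((ZMod.castHom (dvd_mul_right m d) (ZMod m)).prod (ZMod.castHom (dvd_mul_left d m) (ZMod d))))

theorem crtVec_apply (h : m.Coprime d) (x : ZMod (m * d) × ZMod (m * d)) :
    crtVec h x = (vecRed (dvd_mul_right m d) x, vecRed (dvd_mul_left d m) x) := by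
  simp [crtVec, chineseRemainder_eq, vecRed, Equiv.prodProdProdComm]

/-- The weight `φ(x) e_d(b f(x))` mod `m d`. -/
def twistWeight [NeZero d] (b : ℤ) (φ : ZMod m × ZMod m → ℂ)
    (x : ZMod (m * d) × ZMod (m * d)) : ℂ :=
  φ (vecRed (dvd_mul_right m d) x) *
    ZMod.stdAddChar ((b : ZMod d) * f.eval (vecRed (dvd_mul_left d m) x))

/-- Completing the square mod `d`. -/
theorem sum_gauss_linear [NeZero d] (s u : ZMod d) (k μ : ZMod d) (hu : u * μ = 1)
    (hsu : s * ((f.disc : ZMod d) * μ * k) = -u) (y : ZMod d × ZMod d) :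
    ∑ z : ZMod d × ZMod d, ZMod.stdAddChar (s * f.eval z) * ZMod.stdAddChar (u * dot z y) =
      gauss2 f d s * ZMod.stdAddChar (k * f.adj.eval y) := by
  rw [gauss2, Finset.sum_mul]
  refine (Fintype.sum_equiv (Equiv.addRight ((k * μ) • f.adjGram y)) _ _ fun z => ?_).symm
  rw [← AddChar.map_add_eq_mul, ← AddChar.map_add_eq_mul, Equiv.coe_addRight]
  congr 1
  rw [eval_add, eval_smul, eval_adjGram]
  have h1 : dot (f.gram z) ((k * μ) • f.adjGram y) = k * μ * (f.disc : ZMod d) * dot z y := by
    simp only [dot, adjGram, gram, adj, f.disc_cast (ZMod d), Prod.smul_fst, Prod.smul_snd,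
      smul_eq_mul]
    push_cast
    ring
  have h2 : dot (z + (k * μ) • f.adjGram y) y = dot z y + k * μ * (2 * f.adj.eval y) := by
    rw [← f.dot_adjGram_self y]
    simp only [dot, Prod.fst_add, Prod.snd_add, Prod.smul_fst, Prod.smul_snd, smul_eq_mul]
    ring
  rw [h1, h2]
  linear_combination (-(dot z y) - k * μ * f.adj.eval y) * hsu + (-(k * f.adj.eval y)) * hu

theorem fourier2_twistWeight [NeZero m] [NeZero d] (φ : ZMod m × ZMod m → ℂ) {b k u v : ℤ}
    (huv : u * m + v * d = 1) (hbu : b * ((f.disc : ℤ) * m * k) = -u)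
    (y : ZMod (m * d) × ZMod (m * d)) :
    fourier2 (m * d) (twistWeight f b φ) y =
      fourier2 m φ ((v : ZMod m) • vecRed (dvd_mul_right m d) y) *
        (gauss2 f d (b : ZMod d) *
          ZMod.stdAddChar ((k : ZMod d) * f.adj.eval (vecRed (dvd_mul_left d m) y))) := by
  have hcop : m.Coprime d := Nat.isCoprime_iff_coprime.mp ⟨u, v, huv⟩
  have hum : (u : ZMod d) * (m : ZMod d) = 1 := by
    have h := congrArg (Int.cast : ℤ → ZMod d) huv
    push_cast at h
    simpa using h
  have hsu : (b : ZMod d) * ((f.disc : ZMod d) * (m : ZMod d) * (k : ZMod d)) = -(u : ZMod d) := by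
    have h := congrArg (Int.cast : ℤ → ZMod d) hbu
    push_cast at h
    exact h
  rw [fourier2, ← sum_gauss_linear f _ _ _ _ hum hsu, fourier2, Finset.sum_mul_sum,
    ← Fintype.sum_prod_type']
  refine Fintype.sum_equiv (crtVec hcop) _ _ fun x => ?_
  rw [crtVec_apply, twistWeight, stdAddChar_split huv (dot x y), dot_vecRed, dot_vecRed,
    dot_smul_right]
  ring

/-- The Fourier transform of a dilated weight. -/
theorem fourier2_dilate [NeZero m] (φ : ZMod m × ZMod m → ℂ) {a t : ZMod m} (h : a * t = 1)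
    (y : ZMod m × ZMod m) : fourier2 m (dilate t φ) y = fourier2 m φ (a • y) := by
  let e : ZMod m × ZMod m ≃ ZMod m × ZMod m :=
    ⟨fun x => t • x, fun x => a • x, fun x => by simp [smul_smul, h],
      fun x => by simp [smul_smul, mul_comm t a, h]⟩
  refine Fintype.sum_equiv e _ _ fun x => ?_
  show φ (t • x) * _ = φ (t • x) * ZMod.stdAddChar (dot (t • x) (a • y))
  rw [dot_smul_right, show dot (t • x) y = t * dot x y by simp [dot, mul_add, mul_assoc],
    ← mul_assoc, h, one_mul]

end Fermat.Agent.TwoAdic.Theta
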