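import Mathlib.Tactic.Ring
import Mathlib.Tactic.LinearCombination
import Mathlib.Tactic.Positivity
import Mathlib.Tactic.Linarith
import Mathlib.Algebra.Order.Ring.Abs
import Mathlib.Algebra.Algebra.Basic
import Mathlib.Data.Int.Cast.Lemmas
import Mathlib.Data.Real.Basic

/-!
# Positive definite binary quadratic forms over `ℤ`

`f.eval` evaluates `a x² + b x y + c y²` over any commutative ring, `f.adj` is `(c, -b, a)` and
`f.disc = 4 a c - b²`.

Owner: helper76 (LT2, P3a).
-/

set_option autoImplicit false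

namespace Fermat.Agent.TwoAdic.Theta

/-- A positive definite binary quadratic form over `ℤ`. -/
structure PosForm where
  a : ℤ
  b : ℤ
  c : ℤ
  a_pos : 0 < a
  disc_neg : b ^ 2 < 4 * a * c

namespace PosForm

variable (f : PosForm)

theorem c_pos : 0 < f.c := by
  have h1 := f.a_pos; have h2 := f.disc_neg
  by_contra h
  nlinarith [sq_nonneg f.b, mul_nonpos_of_nonneg_of_nonpos h1.le (not_lt.mp h)]

/-- `4 a c - b²`, the absolute value of the discriminant. -/
def disc : ℕ := (4 * f.a * f.c - f.b ^ 2).toNat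

theorem coe_disc : (f.disc : ℤ) = 4 * f.a * f.c - f.b ^ 2 :=
  Int.toNat_of_nonneg (by linarith [f.disc_neg])

theorem disc_pos : 0 < f.disc := by
  have := f.coe_disc; have := f.disc_neg
  omega

instance : NeZero f.disc := ⟨f.disc_pos.ne'⟩

theorem disc_cast (R : Type*) [CommRing R] :
    (f.disc : R) = 4 * f.a * f.c - (f.b : R) ^ 2 := by
  have h := congrArg (Int.cast : ℤ → R) f.coe_disc
  push_cast at h
  exact h

/-- The adjoint form `(c, -b, a)`. -/
def adj : PosForm := ⟨f.c, -f.b, f.a, f.c_pos, by linarith [f.disc_neg]⟩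

@[simp] theorem adj_a : f.adj.a = f.c := rfl
@[simp] theorem adj_b : f.adj.b = -f.b := rfl
@[simp] theorem adj_c : f.adj.c = f.a := rfl
@[simp] theorem disc_adj : f.adj.disc = f.disc := by simp [disc, mul_right_comm]

variable {R : Type*} [CommRing R]

/-- Evaluation in a commutative ring. -/
def eval (x : R × R) : R := (f.a : R) * x.1 ^ 2 + f.b * (x.1 * x.2) + f.c * x.2 ^ 2

/-- The Gram matrix applied to a vector. -/
def gram (x : R × R) : R × R := (2 * (f.a : R) * x.1 + f.b * x.2, f.b * x.1 + 2 * (f.c : R) * x.2)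

/-- The adjugate of the Gram matrix applied to a vector. -/
def adjGram (y : R × R) : R × R := f.adj.gram y

/-- The standard pairing. -/
def dot (x y : R × R) : R := x.1 * y.1 + x.2 * y.2

theorem eval_add (x z : R × R) : f.eval (x + z) = f.eval x + dot (f.gram x) z + f.eval z := by
  simp only [eval, dot, gram, Prod.fst_add, Prod.snd_add]; ring

theorem eval_smul (r : R) (x : R × R) : f.eval (r • x) = r ^ 2 * f.eval x := by
  simp only [eval, Prod.smul_fst, Prod.smul_snd, smul_eq_mul]; ring

theorem eval_adjGram (y : R × R) : f.eval (f.adjGram y) = (f.disc : R) * f.adj.eval y := by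
  simp only [eval, adjGram, gram, adj, f.disc_cast R]; push_cast; ring

theorem gram_adjGram (y : R × R) : f.gram (f.adjGram y) = (f.disc : R) • y := by
  simp only [adjGram, gram, adj, f.disc_cast R, Prod.ext_iff, Prod.smul_fst, Prod.smul_snd,
    smul_eq_mul]
  push_cast
  constructor <;> ring

theorem gram_smul (r : R) (x : R × R) : f.gram (r • x) = r • f.gram x := by
  simp only [gram, Prod.ext_iff, Prod.smul_fst, Prod.smul_snd, smul_eq_mul]
  constructor <;> ring

theorem dot_adjGram_self (y : R × R) : dot (f.adjGram y) y = 2 * f.adj.eval y := by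
  simp only [dot, adjGram, gram, eval]; ring

theorem map_eval {S : Type*} [CommRing S] (g : R →+* S) (x : R × R) :
    g (f.eval x) = f.eval (g x.1, g x.2) := by
  simp [eval]

theorem eval_intCast (x : ℤ × ℤ) :
    ((f.eval x : ℤ) : R) = f.eval ((x.1 : R), (x.2 : R)) :=
  f.map_eval (Int.castRingHom R) x

theorem four_a_mul_eval (x : R × R) :
    4 * (f.a : R) * f.eval x = (2 * f.a * x.1 + f.b * x.2) ^ 2 + f.disc * x.2 ^ 2 := by
  simp only [eval, f.disc_cast R]; ring

theorem eval_nonneg (x : ℝ × ℝ) : 0 ≤ f.eval x := by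
  have h := f.four_a_mul_eval x
  have ha : (0 : ℝ) < f.a := by exact_mod_cast f.a_pos
  have : (0 : ℝ) ≤ 4 * (f.a : ℝ) * f.eval x := by rw [h]; positivity
  nlinarith

theorem eval_nonneg_int (x : ℤ × ℤ) : 0 ≤ f.eval x := by
  have h := f.eval_nonneg ((x.1 : ℝ), (x.2 : ℝ))
  rw [← f.eval_intCast] at h
  exact_mod_cast h

theorem eval_eq_zero_iff (x : ℤ × ℤ) : f.eval x = 0 ↔ x = 0 := by
  refine ⟨fun h => ?_, fun h => by simp [h, eval]⟩
  have h4 := f.four_a_mul_eval x
  rw [h, mul_zero] at h4
  have hd : (0 : ℤ) < f.disc := by exact_mod_cast f.disc_pos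
  simp only [Int.cast_id] at h4
  have h2 : x.2 = 0 := by
    by_contra hne
    nlinarith [sq_nonneg (2 * f.a * x.1 + f.b * x.2), mul_pos hd (sq_pos_of_ne_zero hne)]
  rw [h2] at h4
  have : x.1 = 0 := by
    have ha := f.a_pos
    by_contra hne
    nlinarith [mul_pos (mul_pos ha ha) (sq_pos_of_ne_zero hne)]
  exact Prod.ext this h2

end PosForm

end Fermat.Agent.TwoAdic.Theta
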