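import Fermat.Agent.TwoAdic.Theta.Character
import Mathlib.NumberTheory.ModularForms.Basic
import Mathlib.NumberTheory.ModularForms.CongruenceSubgroups
import Mathlib.NumberTheory.ModularForms.QExpansion
import Mathlib.NumberTheory.DirichletCharacter.Basic
import Mathlib.NumberTheory.LegendreSymbol.Basic
import Fermat.Prelude.Def_CuspForm_IntegralLattice

/-!
# Modularity of periodic binary theta series

Main theorems of P3a.

Owner: helper76 (LT2, P3a).
-/

set_option autoImplicit false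
set_option linter.style.haveILetI false

noncomputable section

namespace Fermat.Agent.TwoAdic.Theta

open UpperHalfPlane CongruenceSubgroup PosForm
open scoped MatrixGroups ModularForm Real

variable (f : PosForm)

theorem thetaH_slash_of_pos_eq (m : ℕ) [NeZero m] (φ : ZMod m × ZMod m → ℂ) {γ : SL(2, ℤ)}
    (hγ : γ ∈ Gamma0 (f.disc * m ^ 2)) {d : ℕ} [NeZero d] (hd : γ 1 1 = (d : ℤ)) :
    thetaH f m φ ∣[(1 : ℤ)] γ =
      f.thetaChar ((γ 1 1 : ℤ) : ZMod f.disc) •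
        thetaH f m (dilate ((γ 1 1 : ℤ) : ZMod m) φ) := by
  have hγ0 : γ ∈ Gamma0 f.disc := by
    rw [Gamma0_mem, ZMod.intCast_zmod_eq_zero_iff_dvd]
    have h := (ZMod.intCast_zmod_eq_zero_iff_dvd _ _).mp (Gamma0_mem.mp hγ)
    exact (Int.natCast_dvd_natCast.mpr (dvd_mul_right _ _)).trans h
  have h1 := thetaH_slash_of_pos f 1 (fun _ => 1) (d := d) (mem_Gamma0_one f hγ0) hd
  have hscal : f.thetaChar ((γ 1 1 : ℤ) : ZMod f.disc) =
      gauss2 f d ((γ 0 1 : ℤ) : ZMod d) / d :=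
    smul_thetaOne_injective f ((thetaOne_slash_thetaChar f hγ0).symm.trans h1)
  rw [hscal, hd, Int.cast_natCast]
  exact thetaH_slash_of_pos f m φ hγ hd

theorem thetaH_slash_of_ne_zero (m : ℕ) [NeZero m] (φ : ZMod m × ZMod m → ℂ) {γ : SL(2, ℤ)}
    (hγ : γ ∈ Gamma0 (f.disc * m ^ 2)) (hc : γ 1 0 ≠ 0) :
    thetaH f m φ ∣[(1 : ℤ)] γ =
      f.thetaChar ((γ 1 1 : ℤ) : ZMod f.disc) •
        thetaH f m (dilate ((γ 1 1 : ℤ) : ZMod m) φ) := by
  set c := γ 1 0 with hcdef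
  set n : ℤ := c * (|γ 1 1| + 1) with hn
  have hpos : 0 < γ 1 1 + n * c := by
    have h1 : |γ 1 1| + 1 ≤ c ^ 2 * (|γ 1 1| + 1) :=
      le_mul_of_one_le_left (by positivity) (Int.add_one_le_iff.mpr (sq_pos_of_ne_zero hc))
    rw [show n * c = c ^ 2 * (|γ 1 1| + 1) by rw [hn]; ring]
    linarith [neg_abs_le (γ 1 1)]
  obtain ⟨d, hd⟩ := Int.eq_ofNat_of_zero_le hpos.le
  have : NeZero d := ⟨by omega⟩
  have hent := (mul_T_zpow_lowerRight γ n).1
  have h := thetaH_slash_of_pos_eq f m φ (mul_mem hγ (T_zpow_mem_Gamma0 _ n)) (d := d)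
    (by rw [hent, ← hcdef]; exact hd)
  have hcast : ∀ N : ℕ, ((c : ℤ) : ZMod N) = 0 →
      (((γ * ModularGroup.T ^ n) 1 1 : ℤ) : ZMod N) = ((γ 1 1 : ℤ) : ZMod N) := fun N hN => by
    rw [hent, ← hcdef]; push_cast; rw [hN, mul_zero, add_zero]
  have hdvd : ((f.disc * m ^ 2 : ℕ) : ℤ) ∣ c :=
    (ZMod.intCast_zmod_eq_zero_iff_dvd _ _).mp (Gamma0_mem.mp hγ)
  rw [hcast f.disc ((ZMod.intCast_zmod_eq_zero_iff_dvd _ _).mpr
      ((Int.natCast_dvd_natCast.mpr (dvd_mul_right _ _)).trans hdvd)),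
    hcast m ((ZMod.intCast_zmod_eq_zero_iff_dvd _ _).mpr
      ((Int.natCast_dvd_natCast.mpr ((dvd_pow_self m two_ne_zero).mul_left f.disc)).trans hdvd))] at h
  rw [show γ = (γ * ModularGroup.T ^ n) * ModularGroup.T ^ (-n) by
    rw [mul_assoc, ← zpow_add, add_neg_cancel, zpow_zero, mul_one], SlashAction.slash_mul, h,
    ModularForm.SL_smul_slash, slash_T_zpow]
  rw [mul_assoc, ← zpow_add, add_neg_cancel, zpow_zero, mul_one]

/-- The transformation law of a periodic theta series. -/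
theorem thetaH_slash (m : ℕ) [NeZero m] (φ : ZMod m × ZMod m → ℂ) {γ : SL(2, ℤ)}
    (hγ : γ ∈ Gamma0 (f.disc * m ^ 2)) :
    thetaH f m φ ∣[(1 : ℤ)] (γ : GL (Fin 2) ℝ) =
      f.thetaChar ((γ 1 1 : ℤ) : ZMod f.disc) •
        thetaH f m (dilate ((γ 1 1 : ℤ) : ZMod m) φ) := by
  show thetaH f m φ ∣[(1 : ℤ)] γ = _
  rcases ne_or_eq (γ 1 0) 0 with hc | hc
  · exact thetaH_slash_of_ne_zero f m φ hγ hc
  · set N : ℤ := ((f.disc * m ^ 2 : ℕ) : ℤ) with hN
    have hne : (γ * lowerUnip N) 1 0 ≠ 0 := by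
      rw [(mul_lowerUnip γ _).1, hc, zero_add]
      exact mul_ne_zero (lowerRight_ne_zero_of_eq_zero hc) (by
        rw [hN]
        exact_mod_cast (mul_pos f.disc_pos (pow_pos (NeZero.pos m) 2)).ne')
    have h1 := thetaH_slash_of_ne_zero f m φ (mul_mem hγ (lowerUnip_mem_Gamma0 dvd_rfl)) hne
    rw [(mul_lowerUnip γ _).2] at h1
    have h3 : lowerUnip N * lowerUnip (-N) = 1 := by
      ext i j
      fin_cases i <;> fin_cases j <;> simp [coe_lowerUnip, Matrix.mul_apply, Fin.sum_univ_two]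
    rw [show γ = (γ * lowerUnip N) * lowerUnip (-N) by rw [mul_assoc, h3, mul_one],
      SlashAction.slash_mul, h1, ModularForm.SL_smul_slash, slash_upper_eq_self f m _
        (lowerUnip_mem_Gamma0 (dvd_neg.mpr dvd_rfl)) (by simp [coe_lowerUnip])]
    rw [mul_assoc, h3, mul_one]

/-- Periodic theta series are bounded at every cusp. -/
theorem isBoundedAtImInfty_thetaH_slash (m : ℕ) [NeZero m] (φ : ZMod m × ZMod m → ℂ)
    (γ : SL(2, ℤ)) : IsBoundedAtImInfty (thetaH f m φ ∣[(1 : ℤ)] (γ : GL (Fin 2) ℝ)) := by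
  show IsBoundedAtImInfty (thetaH f m φ ∣[(1 : ℤ)] γ)
  rcases lt_trichotomy (γ 1 0) 0 with hc | hc | hc
  · have h := isBoundedAtImInfty_thetaH_slash_of_pos f m φ (γ := -γ) (by simpa using hc)
    rw [UpperHalfPlane.isBoundedAtImInfty_iff] at h ⊢
    obtain ⟨M, A, hA⟩ := h
    refine ⟨M, A, fun τ hτ => le_of_eq_of_le ?_ (hA τ hτ)⟩
    show _ = ‖(thetaH f m φ ∣[(1 : ℤ)] (-γ)) τ‖
    rw [ModularForm.SL_slash_apply, ModularForm.SL_slash_apply, ModularGroup.SL_neg_smul]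
    simp [UpperHalfPlane.denom, ← neg_add_rev, add_comm]
  · have hγ : γ ∈ Gamma0 (f.disc * m ^ 2) := by rw [Gamma0_mem, hc, Int.cast_zero]
    rw [show thetaH f m φ ∣[(1 : ℤ)] γ = _ from thetaH_slash f m φ hγ,
      UpperHalfPlane.isBoundedAtImInfty_iff]
    obtain ⟨B, hB⟩ := exists_bound_thetaC f m
      (dilate ((γ 1 1 : ℤ) : ZMod m) φ) one_pos
    refine ⟨‖f.thetaChar ((γ 1 1 : ℤ) : ZMod f.disc)‖ * B, 1, fun τ hτ => ?_⟩
    rw [Pi.smul_apply, smul_eq_mul, norm_mul]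
    exact mul_le_mul_of_nonneg_left (hB _ hτ) (norm_nonneg _)
  · exact isBoundedAtImInfty_thetaH_slash_of_pos f m φ hc

/-- The theta series as a modular form of weight one. -/
def thetaForm (m : ℕ) [NeZero m] (φ : ZMod m × ZMod m → ℂ) :
    ModularForm (Gamma1 (f.disc * m ^ 2)) 1 where
  toFun := thetaH f m φ
  slash_action_eq' := fun _ hA => by
    obtain ⟨A, hA, rfl⟩ := hA
    obtain ⟨-, h11, h10⟩ := (Gamma1_mem _ _).mp hA
    have hdvd : ∀ n : ℕ, n ∣ f.disc * m ^ 2 → ((A 1 1 : ℤ) : ZMod n) = 1 := fun n hn => by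
      have h := congrArg (ZMod.castHom hn (ZMod n)) h11
      rwa [map_intCast, map_one] at h
    have h := thetaH_slash f m φ (γ := A) (Gamma0_mem.mpr h10)
    rw [hdvd f.disc (dvd_mul_right _ _), hdvd m ((dvd_pow_self m two_ne_zero).mul_left _), map_one,
      one_smul, show dilate (1 : ZMod m) φ = φ from funext fun x => by simp [dilate]] at h
    exact h
  holo' := UpperHalfPlane.mdifferentiable_iff.mpr
    ((differentiableOn_thetaC f m φ).congr fun z hz => by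
      simp [thetaH, UpperHalfPlane.ofComplex_apply_of_im_pos hz])
  bdd_at_cusps' {c} hc := by
    rw [Subgroup.IsArithmetic.isCusp_iff_isCusp_SL2Z] at hc
    rw [OnePoint.isBoundedAt_iff_forall_SL2Z hc]
    exact fun γ _ => isBoundedAtImInfty_thetaH_slash f m φ γ

theorem coe_thetaForm (m : ℕ) [NeZero m] (φ : ZMod m × ZMod m → ℂ) :
    ⇑(thetaForm f m φ) = thetaH f m φ := by
  rfl

theorem finite_repsOf (n : ℕ) : (repsOf f n).Finite := by
  refine Set.Finite.subset ((Set.finite_Icc (-(4 * f.c * n : ℤ)) (4 * f.c * n)).prod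
    (Set.finite_Icc (-(4 * f.a * n : ℤ)) (4 * f.a * n))) fun x hx => ?_
  have hx' : f.eval x = (n : ℤ) := hx
  have ha := f.four_a_mul_eval x
  have hc := f.adj.four_a_mul_eval (x.2, -x.1)
  rw [show f.adj.eval ((x.2, -x.1) : ℤ × ℤ) = f.eval x by
    simp only [PosForm.eval, adj_a, adj_b, adj_c, Int.cast_id]; ring, hx', disc_adj, adj_a,
    adj_b] at hc
  rw [hx'] at ha
  simp only [Int.cast_id] at ha hc
  have hd : (1 : ℤ) ≤ (f.disc : ℤ) := by exact_mod_cast f.disc_pos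
  have h1 : x.1 ^ 2 ≤ 4 * f.c * n :=
    calc x.1 ^ 2 ≤ (f.disc : ℤ) * x.1 ^ 2 := le_mul_of_one_le_left (sq_nonneg _) hd
      _ ≤ _ := by linarith [sq_nonneg (2 * f.c * x.2 + -f.b * -x.1), neg_sq x.1]
  have h2 : x.2 ^ 2 ≤ 4 * f.a * n :=
    calc x.2 ^ 2 ≤ (f.disc : ℤ) * x.2 ^ 2 := le_mul_of_one_le_left (sq_nonneg _) hd
      _ ≤ _ := by linarith [sq_nonneg (2 * f.a * x.1 + f.b * x.2)]
  have habs : ∀ y B : ℤ, y ^ 2 ≤ B → -B ≤ y ∧ y ≤ B := fun y B h => by
    constructor <;> nlinarith [sq_nonneg (y - 1), sq_nonneg (y + 1)]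
  exact ⟨habs _ _ h1, habs _ _ h2⟩

theorem qCoeff_thetaForm (m : ℕ) [NeZero m] (φ : ZMod m × ZMod m → ℂ) (n : ℕ) :
    ModularFormClass.qCoeff (thetaForm f m φ) n =
      ∑ x ∈ (finite_repsOf f n).toFinset, φ (vecCast m x) := by
  have hper : (1 : ℝ) ∈
      ((Gamma1 (f.disc * m ^ 2) : Subgroup SL(2, ℤ)) : Subgroup (GL (Fin 2) ℝ)).strictPeriods := by
    simp
  symm
  refine ModularFormClass.qExpansion_coeff_unique
    (c := fun k => ∑ x ∈ (finite_repsOf f k).toFinset, φ (vecCast m x)) one_pos hper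
    (fun τ => ?_) n
  have hfib := ((Equiv.sigmaFiberEquiv fun x : ℤ × ℤ => (f.eval x).toNat).hasSum_iff).mpr
    (hasSum_thetaC f m φ τ.im_pos)
  show HasSum _ (thetaC f m φ (τ : ℂ))
  refine hfib.sigma fun k => ?_
  simp only [Function.comp_apply, Equiv.sigmaFiberEquiv, Equiv.coe_fn_mk]
  have hmem : ∀ x : ℤ × ℤ, x ∈ (finite_repsOf f k).toFinset ↔ (f.eval x).toNat = k := fun x => by
    have := f.eval_nonneg_int x
    simp only [Set.Finite.mem_toFinset, repsOf, Set.mem_ofPred_eq]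
    omega
  rw [show (∑ x ∈ (finite_repsOf f k).toFinset, φ (vecCast m x)) •
      Function.Periodic.qParam 1 (τ : ℂ) ^ k =
      ∑ x ∈ (finite_repsOf f k).toFinset, thetaTerm f m φ τ x by
    rw [Finset.sum_smul]
    refine Finset.sum_congr rfl fun x hx => ?_
    have hxk : (f.eval x : ℤ) = (k : ℤ) := by simpa [repsOf] using hx
    rw [thetaTerm, smul_eq_mul, hxk, Function.Periodic.qParam, ← Complex.exp_nat_mul]
    push_cast
    ring_nf]
  haveI := (finite_repsOf f k).fintype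
  haveI : Fintype {x : ℤ × ℤ // (f.eval x).toNat = k} :=
    Fintype.ofFinset (finite_repsOf f k).toFinset hmem
  rw [Finset.sum_subtype _ hmem (fun x => thetaTerm f m φ τ x)]
  exact hasSum_fintype _

/-- The inversion formula. -/
theorem thetaC_neg_inv (m : ℕ) [NeZero m] (φ : ZMod m × ZMod m → ℂ) {w : ℂ} (hw : 0 < w.im) :
    thetaC f m φ (-1 / w) = -Complex.I * w / (Real.sqrt f.disc * m ^ 2) *
      thetaC f.adj m (fourier2 m φ) (w / (f.disc * m ^ 2)) := by
  exact thetaC_inversion f m φ hw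

/-- Translation by a rational number with denominator dividing `m`. -/
theorem thetaC_add_div (m : ℕ) [NeZero m] (φ : ZMod m × ZMod m → ℂ) (j : ℤ) (τ : ℂ) :
    thetaC f m φ (τ + j / m) =
      thetaC f m (fun x => φ x * ZMod.stdAddChar ((j : ZMod m) * f.eval x)) τ := by
  exact thetaC_add_intCast_div f m φ j τ

end Fermat.Agent.TwoAdic.Theta
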