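import Fermat.Agent.TwoAdic.Weil.Product
import Fermat.Agent.TwoAdic.Theta.Defs

/-!
# Coordinates on a product of planes

An additive bijection `(ℤ/m)² ≃ ∏ Eᵢ` under which the characters of the norms compose to
`e(-t f(x)/m)`. In these coordinates the Weil operators of the translations, of the dilations and
of the lower unipotents become the operations on weights used by the theta series of `f`.

Owner: helper74 (LT2, P3).
-/

set_option autoImplicit false
set_option linter.unusedSectionVars false
set_option linter.style.haveILetI false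

noncomputable section

namespace Fermat.Agent.TwoAdic.Theta

open PosForm Finset
open scoped Matrix

variable {m : ℕ} [NeZero m] {ι : Type*} [Fintype ι] {F E : ι → Type*}
  [∀ i, Field (F i)] [∀ i, Field (E i)] [∀ i, Fintype (F i)] [∀ i, Fintype (E i)]
  [∀ i, Algebra (F i) (E i)] [∀ i, Weil.IsPlane (F i) (E i)]

/-- Coordinates adapted to `f` on a product of planes. -/
structure PlaneCoord (f : PosForm) (d : Weil.Data (ZMod m) F ℂ) (E : ι → Type*)
    [∀ i, Field (E i)] [∀ i, Algebra (F i) (E i)] where
  /-- the coordinates -/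
  equiv : (ZMod m × ZMod m) ≃+ ((i : ι) → E i)
  char_norm : ∀ (t : ZMod m) (x : ZMod m × ZMod m),
    ∏ i, d.char i (d.proj i t * Algebra.norm (F i) (equiv x i)) =
      ZMod.stdAddChar (-(t * f.eval x))

namespace PlaneCoord

variable {f : PosForm} {d : Weil.Data (ZMod m) F ℂ} (P : PlaneCoord f d E)

/-- A function on the planes seen as a weight on `(ℤ/m)²`. -/
def pull : (((i : ι) → E i) → ℂ) →ₗ[ℂ] (ZMod m × ZMod m → ℂ) where
  toFun φ x := φ (P.equiv x)
  map_add' _ _ := rfl
  map_smul' _ _ := rfl

theorem pull_apply (φ : ((i : ι) → E i) → ℂ) (x : ZMod m × ZMod m) :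
    P.pull φ x = φ (P.equiv x) := rfl

theorem equiv_smul (a : ZMod m) (x : ZMod m × ZMod m) :
    P.equiv (a • x) = fun i => d.proj i a • P.equiv x i := by
  obtain ⟨n, rfl⟩ : ∃ n : ℕ, (n : ZMod m) = a := ⟨a.val, ZMod.natCast_zmod_val a⟩
  funext i
  rw [map_natCast, Nat.cast_smul_eq_nsmul, Nat.cast_smul_eq_nsmul, map_nsmul, Pi.smul_apply]

/-- The characters of the polar forms compose to the pairing of `f`. -/
theorem char_planeB (t : ZMod m) (x y : ZMod m × ZMod m) :
    ∏ i, d.char i (d.proj i t * Weil.planeB (F i) (E i) (P.equiv x i) (P.equiv y i)) =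
      ZMod.stdAddChar (-(t * dot (f.gram x) y)) := by
  have h := P.char_norm t (x + y)
  simp only [map_add, Pi.add_apply, Weil.norm_add, mul_add, AddChar.map_add_eq_mul,
    Finset.prod_mul_distrib, P.char_norm, f.eval_add, neg_add] at h
  have hne : ∀ z : ZMod m, (ZMod.stdAddChar z : ℂ) ≠ 0 := fun z => by
    rw [ZMod.stdAddChar_apply]
    exact Circle.coe_ne_zero _
  exact mul_left_cancel₀ (hne _) (mul_right_cancel₀ (hne _) h)

include P in
/-- The product of the orders of the fields is `m`. -/
theorem prod_card_eq : (∏ i, (Fintype.card (F i) : ℂ)) = m := by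
  classical
  have h := Fintype.card_congr P.equiv.toEquiv
  simp only [Fintype.card_prod, ZMod.card, Fintype.card_pi,
    fun i => Module.card_eq_pow_finrank (K := F i) (V := E i),
    fun i => (inferInstance : Weil.IsPlane (F i) (E i)).finrank_eq_two, Finset.prod_pow,
    ← pow_two] at h
  rw [← Nat.cast_prod, Nat.pow_left_injective two_ne_zero h]

/-- The Weil operator of an upper triangular matrix. -/
theorem pull_weilOp_upper (a b e : ZMod m) (φ : ((i : ι) → E i) → ℂ) (x : ZMod m × ZMod m) :
    P.pull (Weil.weilOp d !![a, b; 0, e] φ) x =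
      ZMod.stdAddChar (-(a * b * f.eval x)) * P.pull φ (a • x) := by
  classical
  rw [pull_apply, pull_apply, Weil.weilOp_apply, P.equiv_smul, Finset.sum_eq_single
    (fun i => d.proj i a • P.equiv x i)]
  · rw [Weil.kernP_of_upper, if_pos rfl, P.char_norm]
  · intro y _ hy
    rw [Weil.kernP_of_upper, if_neg hy, zero_mul]
  · exact fun h => absurd (Finset.mem_univ _) h

/-- The sign `∏ (-1)`. -/
def planeSign (ι : Type*) [Fintype ι] : ℂ := (-1) ^ Fintype.card ι

/-- The Weil operator of `(0 -e; e 0)` with `e = ±1` is a Fourier transform. -/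
theorem pull_weilOp_antidiag {e : ZMod m} (he : e * e = 1) (φ : ((i : ι) → E i) → ℂ)
    (x : ZMod m × ZMod m) :
    P.pull (Weil.weilOp d !![0, -e; e, 0] φ) x =
      planeSign ι * (m : ℂ)⁻¹ * fourier2 m (P.pull φ) (e • f.gram x) := by
  classical
  have hunit : ∀ i, d.proj i e ≠ 0 := fun i h => by
    have h' := congrArg (d.proj i) he
    simp [h] at h'
  have hk : ∀ y : ZMod m × ZMod m, Weil.kernP d !![0, -e; e, 0] (P.equiv x) (P.equiv y) =
      planeSign ι * (m : ℂ)⁻¹ * ZMod.stdAddChar (dot y (e • f.gram x)) := by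
    intro y
    rw [show planeSign ι * (m : ℂ)⁻¹ = ∏ i, (-((Fintype.card (F i) : ℂ))⁻¹) by
      rw [Finset.prod_congr rfl fun i _ => neg_eq_neg_one_mul _, Finset.prod_mul_distrib,
        Finset.prod_inv_distrib, P.prod_card_eq, Finset.prod_const, Finset.card_univ, planeSign]]
    rw [show dot y (e • f.gram x) = -(-e * dot (f.gram x) y) by
      simp only [dot, Prod.smul_fst, Prod.smul_snd, smul_eq_mul]; ring, ← P.char_planeB,
      ← Finset.prod_mul_distrib]
    refine Finset.prod_congr rfl fun i _ => ?_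
    letI := d.inv i
    have hsq : d.proj i e * d.proj i e = 1 := by rw [← map_mul, he, map_one]
    simp only [Weil.kern, Matrix.map_apply, Matrix.of_apply, Matrix.cons_val', Matrix.cons_val_zero,
      Matrix.cons_val_one, Matrix.empty_val', Matrix.cons_val_fin_one, if_neg (hunit i), map_zero,
      invOf_eq_inv, map_neg]
    congr 2
    rw [div_eq_iff (hunit i)]
    linear_combination (Weil.planeB (F i) (E i) (P.equiv x i) (P.equiv y i)) * hsq
  rw [pull_apply, Weil.weilOp_apply, fourier2, Finset.mul_sum,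
    ← P.equiv.toEquiv.sum_comp]
  refine Finset.sum_congr rfl fun y _ => ?_
  show Weil.kernP d !![0, -e; e, 0] (P.equiv x) (P.equiv y) * φ (P.equiv y) = _
  rw [hk, pull_apply]
  ring

theorem gram_neg (x : ZMod m × ZMod m) : f.gram (-x) = -f.gram x := by
  have h := f.gram_smul (-1 : ZMod m) x
  simpa using h

theorem adj_eval_gram (x : ZMod m × ZMod m) :
    f.adj.eval (f.gram x) = (f.disc : ZMod m) * f.eval x := by
  simp only [eval, gram, adj, f.disc_cast (ZMod m)]; push_cast; ring

theorem dot_gram (x y : ZMod m × ZMod m) : dot (f.gram x) y = dot (f.gram y) x := by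
  simp only [dot, gram]; ring

theorem gram_bijective (hdisc : IsUnit (f.disc : ZMod m)) :
    Function.Bijective (f.gram (R := ZMod m)) := by
  refine Finite.injective_iff_bijective.mp fun x y h => ?_
  have key : ∀ z : ZMod m × ZMod m, f.adjGram (f.gram z) = (f.disc : ZMod m) • z := fun z => by
    simp only [adjGram, gram, adj, f.disc_cast (ZMod m), Prod.ext_iff, Prod.smul_fst,
      Prod.smul_snd, smul_eq_mul]
    push_cast
    constructor <;> ring
  have h' : (f.disc : ZMod m) • x = (f.disc : ZMod m) • y := by rw [← key, ← key, h]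
  exact (hdisc.smul_left_cancel).mp h'

/-- The Weil operator of a lower unipotent. -/
theorem pull_weilOp_lower (hdisc : IsUnit (f.disc : ZMod m)) (k : ZMod m)
    (φ : ((i : ι) → E i) → ℂ) (x : ZMod m × ZMod m) :
    P.pull (Weil.weilOp d !![1, 0; -((f.disc : ZMod m) * k), 1] φ) x =
      ((m : ℂ) ^ 2)⁻¹ * fourier2 m
        (fun y => fourier2 m (P.pull φ) y * ZMod.stdAddChar (-(k * f.adj.eval y))) (-x) := by
  classical
  set c : ZMod m := -((f.disc : ZMod m) * k) with hc
  have hdec : (!![1, 0; c, 1] : Matrix (Fin 2) (Fin 2) (ZMod m)) =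
      !![0, -1; 1, 0] * !![1, -c; 0, 1] * !![0, -(-1); -1, 0] := by
    simp only [Matrix.mul_fin_two]
    congrm !![?_, ?_; ?_, ?_] <;> ring
  have d1 : (!![0, -1; 1, 0] : Matrix (Fin 2) (Fin 2) (ZMod m)).det = 1 := by
    rw [Matrix.det_fin_two_of]; ring
  have d2 : (!![1, -c; 0, 1] : Matrix (Fin 2) (Fin 2) (ZMod m)).det = 1 := by
    rw [Matrix.det_fin_two_of]; ring
  have d3 : (!![0, -(-1); -1, 0] : Matrix (Fin 2) (Fin 2) (ZMod m)).det = 1 := by
    rw [Matrix.det_fin_two_of]; ring
  rw [hdec, Weil.weilOp_mul d _ _ (by rw [Matrix.det_mul, d1, d2, one_mul]) d3,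
    Weil.weilOp_mul d _ _ d1 d2, Module.End.mul_apply, Module.End.mul_apply,
    P.pull_weilOp_antidiag (by ring), one_smul]
  have hinner : P.pull (Weil.weilOp d !![1, -c; 0, 1] (Weil.weilOp d !![0, -(-1); -1, 0] φ)) =
      fun y => planeSign ι * (m : ℂ)⁻¹ *
        (fourier2 m (P.pull φ) (-f.gram y) * ZMod.stdAddChar (-(k * f.adj.eval (-f.gram y)))) := by
    funext y
    rw [P.pull_weilOp_upper, one_smul, P.pull_weilOp_antidiag (by ring), neg_one_smul,
      ← gram_neg, adj_eval_gram, show f.eval (-y) = f.eval y by simp only [eval]; simp]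
    rw [show -(1 * -c * f.eval y) = -(k * ((f.disc : ZMod m) * f.eval y)) by rw [hc]; ring]
    ring
  rw [hinner]
  have hbij : Function.Bijective fun y : ZMod m × ZMod m => -f.gram y :=
    neg_involutive.bijective.comp (gram_bijective hdisc)
  have hsign : planeSign ι * planeSign ι = 1 := by
    rw [planeSign, ← mul_pow, neg_mul_neg, one_mul, one_pow]
  rw [fourier2, fourier2, Finset.mul_sum, Finset.mul_sum]
  refine Fintype.sum_bijective _ hbij _ _ fun y => ?_
  rw [show dot (-f.gram y) (-x) = dot y (f.gram x) by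
    simp only [dot, gram, Prod.fst_neg, Prod.snd_neg]; ring]
  linear_combination (((m : ℂ) ^ 2)⁻¹ * fourier2 m (P.pull φ) (-f.gram y) *
    ZMod.stdAddChar (-(k * f.adj.eval (-f.gram y))) * ZMod.stdAddChar (dot y (f.gram x))) * hsign

end PlaneCoord

end Fermat.Agent.TwoAdic.Theta
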