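import Fermat.Agent.TwoAdic.Theta.Analytic
import Fermat.Agent.TwoAdic.Theta.FiniteFourier
import Mathlib.NumberTheory.ModularForms.SlashActions
import Mathlib.NumberTheory.ModularForms.CongruenceSubgroups
import Mathlib.NumberTheory.ModularForms.BoundedAtCusp

/-!
# The transformation formula with an unevaluated Gauss sum, and boundedness at every cusp

For `γ = (a b; c d)` with `Δ m² ∣ c` and `d > 0` one has
`θ_φ |₁ γ = (∑ e(b f(z)/d) / d) θ_{φ(d ·)}`.

Owner: helper76 (LT2, P3a).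
-/

set_option autoImplicit false

noncomputable section

namespace Fermat.Agent.TwoAdic.Theta

open PosForm CongruenceSubgroup UpperHalfPlane
open scoped MatrixGroups ModularForm Real

variable (f : PosForm) (m : ℕ) [NeZero m] (φ : ZMod m × ZMod m → ℂ)

theorem im_neg_inv_pos {τ : ℂ} (hτ : 0 < τ.im) : 0 < (-1 / τ).im := by
  have hτ0 : τ ≠ 0 := fun h => by simp [h] at hτ
  rw [neg_div, Complex.neg_im, one_div, Complex.inv_im, neg_div, neg_neg]
  exact div_pos hτ (Complex.normSq_pos.mpr hτ0)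

theorem thetaC_transform {d : ℕ} [NeZero d] {a b k : ℤ}
    (h : a * d - b * ((f.disc : ℤ) * m ^ 2 * k) = 1) {τ : ℂ} (hτ : 0 < τ.im) :
    thetaC f m φ (((a : ℂ) * τ + b) / ((f.disc : ℂ) * m ^ 2 * k * τ + d)) =
      gauss2 f d (b : ZMod d) / d * ((f.disc : ℂ) * m ^ 2 * k * τ + d) *
        thetaC f m (dilate ((d : ℕ) : ZMod m) φ) τ := by
  set σ : ℂ := -1 / τ with hσ
  set w : ℂ := (d : ℂ) * (d * σ - (f.disc : ℂ) * m ^ 2 * k) with hw
  have hτ0 : τ ≠ 0 := fun h => by simp [h] at hτ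
  have hd : (d : ℂ) ≠ 0 := by exact_mod_cast NeZero.ne d
  have hm : (m : ℂ) ≠ 0 := by exact_mod_cast NeZero.ne m
  have hΔ : (f.disc : ℂ) ≠ 0 := by exact_mod_cast f.disc_pos.ne'
  have hσim : 0 < σ.im := im_neg_inv_pos hτ
  have hwim : 0 < w.im := by
    have : w.im = (d : ℝ) ^ 2 * σ.im := by
      rw [hw]; simp [Complex.mul_im, Complex.sub_im, pow_two]; ring
    rw [this]
    exact mul_pos (by have := NeZero.pos d; positivity) hσim
  have hc : (f.disc : ℂ) * m ^ 2 * k * τ + d ≠ 0 := fun h0 => by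
    have : w = 0 := by
      rw [hw, hσ]; field_simp; linear_combination (-(d : ℂ)) * h0
    simp [this] at hwim
  have hw0 : w ≠ 0 := fun h0 => by simp [h0] at hwim
  have harg : ((a : ℂ) * τ + b) / ((f.disc : ℂ) * m ^ 2 * k * τ + d) = -1 / w + (b : ℂ) / d := by
    have hinv : -1 / w = τ / (d * ((f.disc : ℂ) * m ^ 2 * k * τ + d)) := by
      rw [div_eq_div_iff hw0 (mul_ne_zero hd hc), hw, hσ]
      field_simp
      ring
    have hC : (a : ℂ) * d - b * ((f.disc : ℂ) * m ^ 2 * k) = 1 := by exact_mod_cast h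
    rw [hinv, div_add_div _ _ (mul_ne_zero hd hc) hd,
      div_eq_div_iff hc (mul_ne_zero (mul_ne_zero hd hc) hd)]
    linear_combination (d * ((f.disc : ℂ) * m ^ 2 * k * τ + d) * τ) * hC
  -- absorb the translation into the weight
  have hshift : ∀ z : ℂ, thetaC f m φ (z + (b : ℂ) / d) =
      thetaC f (m * d) (twistWeight f b φ) z := fun z => by
    refine tsum_congr fun x => ?_
    rw [twistWeight, vecRed_vecCast, vecRed_vecCast, mul_assoc (φ _)]
    congr 1
    rw [show (b : ZMod d) * f.eval (vecCast d x) = ((b * f.eval x : ℤ) : ZMod d) by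
      push_cast; rw [f.eval_intCast x]; rfl, ZMod.stdAddChar_coe, ← Complex.exp_add]
    push_cast
    congr 1
    field_simp
    ring
  have huv : (-(b * (f.disc : ℤ) * m * k)) * (m : ℤ) + a * (d : ℤ) = 1 := by linear_combination h
  -- the dual series
  have hdual : thetaC f.adj (m * d) (fourier2 (m * d) (twistWeight f b φ))
      (w / (f.disc * ((m * d : ℕ) : ℂ) ^ 2)) =
      gauss2 f d (b : ZMod d) *
        thetaC f.adj m (fourier2 m (dilate ((d : ℕ) : ZMod m) φ)) (σ / (f.disc * m ^ 2)) := by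
    rw [thetaC, thetaC, ← tsum_mul_left]
    refine tsum_congr fun x => ?_
    rw [fourier2_twistWeight f φ huv (k := k) (by ring), vecRed_vecCast, vecRed_vecCast,
      fourier2_dilate φ (a := (a : ZMod m)) ?_,
      show (k : ZMod d) * f.adj.eval (vecCast d x) = ((k * f.adj.eval x : ℤ) : ZMod d) by
        push_cast; rw [f.adj.eval_intCast x]; rfl, ZMod.stdAddChar_coe]
    · have hexp : Complex.exp (2 * π * Complex.I * (k * f.adj.eval x : ℤ) / d) *
          Complex.exp (2 * π * Complex.I * (f.adj.eval x : ℤ) *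
            (w / (f.disc * ((m * d : ℕ) : ℂ) ^ 2))) =
          Complex.exp (2 * π * Complex.I * (f.adj.eval x : ℤ) * (σ / (f.disc * m ^ 2))) := by
        rw [← Complex.exp_add, hw]
        push_cast
        congr 1
        field_simp
        ring
      rw [← hexp]
      ring
    · have h' := congrArg (Int.cast : ℤ → ZMod m) h
      push_cast at h'
      simpa [mul_comm] using h'
  have hback : thetaC f m (dilate ((d : ℕ) : ZMod m) φ) τ = -Complex.I * σ /
      (Real.sqrt f.disc * m ^ 2) *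
      thetaC f.adj m (fourier2 m (dilate ((d : ℕ) : ZMod m) φ)) (σ / (f.disc * m ^ 2)) := by
    rw [← thetaC_inversion f m _ hσim, hσ]
    congr 1
    field_simp
  rw [harg, hshift, thetaC_inversion f (m * d) _ hwim, hdual, hback, hw, hσ]
  push_cast
  have hsq : (Real.sqrt f.disc : ℂ) ≠ 0 := by
    exact_mod_cast (Real.sqrt_pos.mpr (by exact_mod_cast f.disc_pos : (0 : ℝ) < f.disc)).ne'
  field_simp
  ring

/-- The slash formula for positive lower right entry. -/
theorem thetaH_slash_of_pos {d : ℕ} [NeZero d] {γ : SL(2, ℤ)}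
    (hγ : γ ∈ Gamma0 (f.disc * m ^ 2)) (hd : γ 1 1 = (d : ℤ)) :
    thetaH f m φ ∣[(1 : ℤ)] (γ : GL (Fin 2) ℝ) =
      (gauss2 f d ((γ 0 1 : ℤ) : ZMod d) / d) • thetaH f m (dilate ((d : ℕ) : ZMod m) φ) := by
  obtain ⟨k, hk⟩ := (ZMod.intCast_zmod_eq_zero_iff_dvd _ _).mp (Gamma0_mem.mp hγ)
  push_cast at hk
  have hdet := γ.det_coe
  rw [Matrix.det_fin_two, hd, hk] at hdet
  ext τ
  show (thetaH f m φ ∣[(1 : ℤ)] γ) τ = _
  rw [ModularForm.SL_slash_apply, UpperHalfPlane.denom, Pi.smul_apply, smul_eq_mul, thetaH, thetaH,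
    UpperHalfPlane.coe_specialLinearGroup_apply]
  simp only [algebraMap_int_eq, eq_intCast, hd, hk]
  have hform := thetaC_transform f m φ (d := d) (a := γ 0 0) (b := γ 0 1) (k := k)
    (by linear_combination hdet) (τ := (τ : ℂ)) τ.im_pos
  have hne : (f.disc : ℂ) * m ^ 2 * k * (τ : ℂ) + d ≠ 0 := by
    have := UpperHalfPlane.denom_ne_zero (γ : GL (Fin 2) ℝ) τ
    simpa [UpperHalfPlane.denom, hd, hk] using this
  simp [hd, hk, hform]
  field_simp

/-- Boundedness at infinity after any `γ ∈ SL₂(ℤ)` with `c > 0`. -/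
theorem isBoundedAtImInfty_thetaH_slash_of_pos {γ : SL(2, ℤ)} (hc : 0 < γ 1 0) :
    IsBoundedAtImInfty (thetaH f m φ ∣[(1 : ℤ)] (γ : GL (Fin 2) ℝ)) := by
  set a := γ 0 0
  set b := γ 0 1
  set c := γ 1 0 with hcdef
  set d := γ 1 1
  obtain ⟨n, hn⟩ := Int.eq_ofNat_of_zero_le hc.le
  have : NeZero n := ⟨by omega⟩
  have hn' : (c : ℂ) = (n : ℂ) := by rw [hn]; simp
  have hnp : (0 : ℝ) < n := by exact_mod_cast NeZero.pos n
  have hΔp : (0 : ℝ) < f.disc := by exact_mod_cast f.disc_pos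
  have hmp : (0 : ℝ) < m := by exact_mod_cast NeZero.pos m
  obtain ⟨B, hB⟩ := exists_bound_thetaC f.adj (m * n) (fourier2 (m * n) (twistWeight f a φ))
    (y₀ := 1 / (f.disc * (m : ℝ) ^ 2)) (by positivity)
  rw [UpperHalfPlane.isBoundedAtImInfty_iff]
  refine ⟨n / (Real.sqrt f.disc * ((m * n : ℕ) : ℝ) ^ 2) * B, 1, fun τ hτ => ?_⟩
  show ‖(thetaH f m φ ∣[(1 : ℤ)] γ) τ‖ ≤ _
  rw [ModularForm.SL_slash_apply, UpperHalfPlane.denom, thetaH,
    UpperHalfPlane.coe_specialLinearGroup_apply]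
  simp only [algebraMap_int_eq, eq_intCast]
  set w : ℂ := (n : ℂ) * (n * (τ : ℂ) + d) with hw
  have hwim : w.im = (n : ℝ) ^ 2 * τ.im := by rw [hw]; simp [Complex.mul_im]; ring
  have hwim0 : 0 < w.im := by rw [hwim]; exact mul_pos (by positivity) τ.im_pos
  have hw0 : w ≠ 0 := fun h0 => by simp [h0] at hwim0
  have hn0 : (n : ℂ) ≠ 0 := by exact_mod_cast NeZero.ne n
  have hden : (n : ℂ) * (τ : ℂ) + d ≠ 0 := fun h0 => hw0 (by rw [hw, h0, mul_zero])
  have hdet := γ.det_coe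
  rw [Matrix.det_fin_two] at hdet
  have hdetC : (a : ℂ) * d - b * n = 1 := by rw [← hn']; exact_mod_cast hdet
  have harg : ((a : ℂ) * (τ : ℂ) + b) / ((c : ℂ) * τ + d) = -1 / w + (a : ℂ) / n := by
    rw [hn', div_add_div _ _ hw0 hn0, div_eq_div_iff hden (mul_ne_zero hw0 hn0), hw]
    linear_combination (-(n : ℂ) * (n * (τ : ℂ) + d)) * hdetC
  have hshift : thetaC f m φ (-1 / w + (a : ℂ) / n) =
      thetaC f (m * n) (twistWeight f a φ) (-1 / w) := by
    refine tsum_congr fun x => ?_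
    rw [twistWeight, vecRed_vecCast, vecRed_vecCast, mul_assoc (φ _)]
    congr 1
    rw [show (a : ZMod n) * f.eval (vecCast n x) = ((a * f.eval x : ℤ) : ZMod n) by
      push_cast; rw [f.eval_intCast x]; rfl, ZMod.stdAddChar_coe, ← Complex.exp_add]
    push_cast
    congr 1
    field_simp
    ring
  have hbound := hB (w / (f.disc * ((m * n : ℕ) : ℂ) ^ 2)) (by
    rw [show (f.disc : ℂ) * ((m * n : ℕ) : ℂ) ^ 2 = ((f.disc * (m * n : ℝ) ^ 2 : ℝ) : ℂ) by
      push_cast; rfl, Complex.div_ofReal_im, hwim, le_div_iff₀ (by positivity)]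
    field_simp
    nlinarith)
  refine le_of_eq_of_le ?_ (mul_le_mul_of_nonneg_left hbound (by positivity))
  have hval : thetaC f m φ (((a : ℂ) * (τ : ℂ) + b) / ((c : ℂ) * τ + d)) *
      ((c : ℂ) * (τ : ℂ) + d) ^ (-1 : ℤ) =
      -Complex.I * n / (Real.sqrt f.disc * ((m * n : ℕ) : ℂ) ^ 2) *
        thetaC f.adj (m * n) (fourier2 (m * n) (twistWeight f a φ))
          (w / (f.disc * ((m * n : ℕ) : ℂ) ^ 2)) := by
    rw [harg, hshift, thetaC_inversion f (m * n) _ hwim0, hn', zpow_neg_one, hw]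
    field_simp
  rw [show (n : ℝ) / (Real.sqrt f.disc * ((m * n : ℕ) : ℝ) ^ 2) =
      ‖-Complex.I * n / (Real.sqrt f.disc * ((m * n : ℕ) : ℂ) ^ 2)‖ by
    simp [abs_of_nonneg (Real.sqrt_nonneg _)], ← norm_mul, ← hval]
  simp [a, b, c, d]

end Fermat.Agent.TwoAdic.Theta
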